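import Fermat.Agent.Nesterenko.Main
import Fermat.Agent.ThetaAGM.Jacobi
import Fermat.Agent.ThetaAGM.Mean

/-!
# Values at an algebraic `q`

For algebraic `q`, `P (q), Q (q), R (q)` are algebraically independent; for algebraic `e ^ (-π t)`
any two of the theta constants at `i t` are, so each is transcendental, and so is `∑ q ^ (n ²)`.
-/

set_option autoImplicit false

noncomputable section

namespace FA.NesterenkoValues

open Complex (I)
open FA.ThetaAGM (thetaTwo thetaThree thetaFour imPt)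
open FA.BrownawellWaldschmidt (algebraicIndependent_pair)
open FA.Nesterenko (exists_transcendental_over exists_transcendental_over_pair transcendental_of_le)
open scoped Real

local notation "ℚ⟪" s "⟫" => IntermediateField.adjoin ℚ (s : Set ℂ)

theorem isAlgebraic_mem {K : IntermediateField ℚ ℂ} {x : ℂ} (h : x ∈ K) : IsAlgebraic K x :=
  isAlgebraic_algebraMap (⟨x, h⟩ : K)

theorem isAlgebraic_of_le {K L : IntermediateField ℚ ℂ} (h : K ≤ L) {x : ℂ}
    (hx : IsAlgebraic K x) : IsAlgebraic L x := by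
  by_contra hL
  exact transcendental_of_le h hL hx

theorem exists_pair_over {w : ℂ} (hw : Transcendental ℚ w) (z : ℂ) :
    ∃ v, AlgebraicIndependent ℚ ![w, v] ∧ IsAlgebraic ℚ⟪{w, v}⟫ z := by
  by_cases hz : Transcendental ℚ⟪{w}⟫ z
  · exact ⟨z, algebraicIndependent_pair hw hz,
      isAlgebraic_mem (IntermediateField.subset_adjoin ℚ _ (Set.mem_insert_of_mem w rfl))⟩
  · obtain ⟨v, hv⟩ := exists_transcendental_over (Set.countable_singleton w)
    refine ⟨v, algebraicIndependent_pair hw hv, isAlgebraic_of_le ?_ (not_not.1 hz)⟩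
    exact IntermediateField.adjoin.mono _ _ _ (by simp)

/-- Two numbers over which all values but one are algebraic are algebraically independent. -/
theorem algebraicIndependent_of_all_algebraic {ω : Fin 4 → ℂ}
    (hseq : ∀ ε : ℝ, 0 < ε → ε ≤ 1 → ∀ᶠ N : ℕ in Filter.atTop, ∃ B : MvPolynomial (Fin 4) ℤ,
      (B.totalDegree : ℝ) ≤ (N : ℝ) ^ (1 + ε) ∧
      Real.log (FA.Roth.len B) ≤ (N : ℝ) ^ (1 + ε) ∧
      Real.exp (-(N : ℝ) ^ (4 + ε)) ≤ ‖MvPolynomial.aeval ω B‖ ∧
      ‖MvPolynomial.aeval ω B‖ ≤ Real.exp (-(N : ℝ) ^ (4 - ε)))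
    {x y : ℂ} (h : ∀ K : IntermediateField ℚ ℂ, IsAlgebraic K x → IsAlgebraic K y →
      ∀ i, i ≠ 2 → IsAlgebraic K (ω i)) : AlgebraicIndependent ℚ ![x, y] := by
  by_contra hxy
  obtain ⟨w, hw, hxw, hyw⟩ : ∃ w : ℂ, Transcendental ℚ w ∧ IsAlgebraic ℚ⟪{w}⟫ x ∧
      IsAlgebraic ℚ⟪{w}⟫ y := by
    by_cases hx : Transcendental ℚ x
    · refine ⟨x, hx, isAlgebraic_mem (IntermediateField.subset_adjoin ℚ _ rfl), ?_⟩
      by_contra hy
      exact hxy (algebraicIndependent_pair hx hy)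
    by_cases hy : Transcendental ℚ y
    · exact ⟨y, hy, IsAlgebraic.tower_top _ (not_not.1 hx),
        isAlgebraic_mem (IntermediateField.subset_adjoin ℚ _ rfl)⟩
    obtain ⟨u, hu⟩ := exists_transcendental_over (s := ∅) Set.countable_empty
    exact ⟨u, fun h0 => hu (IsAlgebraic.tower_top _ h0),
      IsAlgebraic.tower_top _ (not_not.1 hx), IsAlgebraic.tower_top _ (not_not.1 hy)⟩
  obtain ⟨v, hwv, hv⟩ := exists_pair_over hw (ω 2)
  obtain ⟨i, hi⟩ := exists_transcendental_over_pair hseq hwv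
  have hle : ℚ⟪{w}⟫ ≤ ℚ⟪{w, v}⟫ := IntermediateField.adjoin.mono _ _ _ (by simp)
  rcases eq_or_ne i 2 with rfl | h2
  · exact hi hv
  · exact hi (h _ (isAlgebraic_of_le hle hxw) (isAlgebraic_of_le hle hyw) i h2)

theorem surj_of_avoid : ∀ i j k : Fin 4, i ≠ j → i ≠ k → j ≠ k → i ≠ 3 → j ≠ 3 → k ≠ 3 →
    ∀ a : Fin 4, a ≠ 3 → ∃ m : Fin 3, ![i, j, k] m = a := by decide

/-- If three of four numbers are independent and the last is algebraic, the first three are. -/
theorem independent_of_algebraic_last {η : Fin 4 → ℂ}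
    (h : ∃ i j k, AlgebraicIndependent ℚ ![η i, η j, η k]) (hlast : IsAlgebraic ℚ (η 3)) :
    AlgebraicIndependent ℚ ![η 2, η 1, η 0] := by
  obtain ⟨i, j, k, h⟩ := h
  have hval : ∀ m : Fin 3, ![η i, η j, η k] m = η (![i, j, k] m) := fun m => by
    fin_cases m <;> rfl
  have hinj : Function.Injective ![i, j, k] := fun u v huv =>
    h.injective (by rw [hval, hval, huv])
  have hne : ∀ {a b : Fin 3}, a ≠ b → ![i, j, k] a ≠ ![i, j, k] b := fun {a b} => hinj.ne
  have h3 : ∀ a : Fin 3, ![i, j, k] a ≠ 3 := fun a e => by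
    refine h.transcendental a ?_
    rwa [hval, e]
  have hs := surj_of_avoid i j k (hne (a := 0) (b := 1) (by decide))
    (hne (a := 0) (b := 2) (by decide)) (hne (a := 1) (b := 2) (by decide)) (h3 0) (h3 1) (h3 2)
  obtain ⟨a, ha⟩ := hs 2 (by decide)
  obtain ⟨b, hb⟩ := hs 1 (by decide)
  obtain ⟨c, hc⟩ := hs 0 (by decide)
  have hinj' : Function.Injective ![a, b, c] := fun u v huv => by
    have huv' := congrArg ![i, j, k] huv
    fin_cases u <;> fin_cases v <;> simp_all
  convert h.comp _ hinj' using 1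
  ext m
  fin_cases m <;> simp [hval, ha, hb, hc]

/-- **`P, Q, R` at an algebraic point.** -/
theorem algebraicIndependent_at_algebraic {q : ℂ} (hq : IsAlgebraic ℚ q) (hq0 : q ≠ 0)
    (hq1 : ‖q‖ < 1) : AlgebraicIndependent ℚ
      ![FA.Nesterenko.fn 2 q, FA.Nesterenko.fn 1 q, FA.Nesterenko.fn 0 q] :=
  independent_of_algebraic_last (η := fun i => FA.Nesterenko.fn i q)
    (FA.Nesterenko.exists_independent_three fun _ hε hε1 =>
      FA.Nesterenko.eventually_exists_small_value hq0 hq1 hε hε1)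
    (by rwa [FA.Nesterenko.fn_three])

theorem qParam_imPt {t : ℝ} (ht : 0 < t) : Function.Periodic.qParam 1 (imPt t ht : ℂ) =
    ((Real.exp (-π * t) : ℝ) : ℂ) ^ 2 := by
  rw [Function.Periodic.qParam, FA.ThetaAGM.coe_imPt, Complex.ofReal_exp, ← Complex.exp_nat_mul]
  congr 1
  push_cast
  linear_combination (2 * (π : ℂ) * t) * Complex.I_mul_I

/-- Two numbers over which the three theta constants are algebraic are independent. -/
theorem algebraicIndependent_theta {t : ℝ} (ht : 0 < t)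
    (hnome : IsAlgebraic ℚ ((Real.exp (-π * t) : ℝ) : ℂ)) {x y : ℂ}
    (h : ∀ K : IntermediateField ℚ ℂ, IsAlgebraic K x → IsAlgebraic K y →
      IsAlgebraic K (thetaTwo t : ℂ) ∧ IsAlgebraic K (thetaThree t : ℂ) ∧
        IsAlgebraic K (thetaFour t : ℂ)) : AlgebraicIndependent ℚ ![x, y] := by
  refine algebraicIndependent_of_all_algebraic
    (fun ε hε hε1 => FA.Nesterenko.small_values_at (imPt t ht) hε hε1) fun K hx hy i hi => ?_
  obtain ⟨h2, h3, h4⟩ := h K hx hy
  obtain ⟨e6, e4, -⟩ := FA.Nesterenko.fn_qParam (imPt t ht)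
  obtain ⟨i4, i6⟩ := FA.ThetaAGM.invariants_imPt ht
  have hhalf : IsAlgebraic K ((2 : ℂ)⁻¹) :=
    IsAlgebraic.tower_top _ (isAlgebraic_natCast (R := ℚ) (A := ℂ) 2).inv
  fin_cases i
  · simp only [Fin.zero_eta, e6, i6]
    push_cast
    rw [div_eq_mul_inv]
    exact ((((h2.pow 4).add (h3.pow 4)).mul ((h3.pow 4).add (h4.pow 4))).mul
      ((h4.pow 4).sub (h2.pow 4))).mul hhalf
  · simp only [Fin.mk_one, e4, i4]
    push_cast
    rw [div_eq_mul_inv]
    exact (((h2.pow 8).add (h3.pow 8)).add (h4.pow 8)).mul hhalf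
  · exact absurd rfl hi
  · simp only [Fin.reduceFinMk, FA.Nesterenko.fn_three, qParam_imPt ht]
    exact IsAlgebraic.tower_top _ (hnome.pow 2)

/-- **Any two theta constants at an algebraic nome.** -/
theorem theta_pairs {t : ℝ} (ht : 0 < t) (hnome : IsAlgebraic ℚ (Real.exp (-π * t))) :
    AlgebraicIndependent ℚ ![thetaThree t, thetaFour t] ∧
      AlgebraicIndependent ℚ ![thetaTwo t, thetaThree t] ∧
      AlgebraicIndependent ℚ ![thetaTwo t, thetaFour t] := by
  have hn : IsAlgebraic ℚ ((Real.exp (-π * t) : ℝ) : ℂ) :=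
    hnome.algHom (Complex.ofRealAm.restrictScalars ℚ)
  have hq : (thetaTwo t : ℂ) ^ 4 + (thetaFour t : ℂ) ^ 4 = (thetaThree t : ℂ) ^ 4 := by
    exact_mod_cast FA.ThetaAGM.quartic ht
  have down : ∀ {a b : ℝ}, AlgebraicIndependent ℚ ![(a : ℂ), (b : ℂ)] →
      AlgebraicIndependent ℚ ![a, b] := fun {a b} h => by
    refine AlgebraicIndependent.of_comp (Complex.ofRealAm.restrictScalars ℚ) ?_
    convert h using 1
    ext i
    fin_cases i <;> rfl
  refine ⟨down ?_, down ?_, down ?_⟩ <;> refine algebraicIndependent_theta ht hn fun K hx hy => ?_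
  · refine ⟨IsAlgebraic.of_pow four_pos ?_, hx, hy⟩
    rw [eq_sub_of_add_eq hq]
    exact (hx.pow 4).sub (hy.pow 4)
  · refine ⟨hx, hy, IsAlgebraic.of_pow four_pos ?_⟩
    rw [eq_sub_of_add_eq' hq]
    exact (hy.pow 4).sub (hx.pow 4)
  · refine ⟨hx, IsAlgebraic.of_pow four_pos ?_, hy⟩
    rw [← hq]
    exact (hx.pow 4).add (hy.pow 4)

/-- **Each theta constant at an algebraic nome is transcendental.** -/
theorem transcendental_theta {t : ℝ} (ht : 0 < t) (hnome : IsAlgebraic ℚ (Real.exp (-π * t))) :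
    Transcendental ℚ (thetaTwo t) ∧ Transcendental ℚ (thetaThree t) ∧
      Transcendental ℚ (thetaFour t) := by
  obtain ⟨h34, h23, -⟩ := theta_pairs ht hnome
  exact ⟨h23.transcendental 0, h34.transcendental 0, h34.transcendental 1⟩

theorem summable_sq_pow {q : ℝ} (h : |q| < 1) : Summable fun n : ℕ => q ^ n ^ 2 :=
  Summable.of_norm_bounded (summable_geometric_of_lt_one (abs_nonneg q) h) fun n => by
    rw [Real.norm_eq_abs, abs_pow]
    exact pow_le_pow_of_le_one (abs_nonneg q) h.le (Nat.le_self_pow two_ne_zero n)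

theorem tsum_int_sq {q : ℝ} (h : |q| < 1) :
    ∑' n : ℤ, q ^ n.natAbs ^ 2 = 2 * ∑' n : ℕ, q ^ n ^ 2 - 1 := by
  have h0 := (summable_sq_pow h).hasSum
  have hsucc := (hasSum_nat_add_iff' (f := fun n : ℕ => q ^ n ^ 2) 1).2 h0
  rw [(HasSum.of_nat_of_neg_add_one (f := fun n : ℤ => q ^ n.natAbs ^ 2)
    (by simpa using h0) (hsucc.congr_fun fun n => ?_)).tsum_eq]
  · simp
    ring
  · congr 2

/-- **`∑ q ^ (n ²)` is transcendental for algebraic real `0 < |q| < 1`.** -/
theorem transcendental_sum_pow_sq {q : ℝ} (hq : IsAlgebraic ℚ q) (h0 : q ≠ 0) (h1 : |q| < 1) :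
    Transcendental ℚ (∑' n : ℕ, q ^ n ^ 2) := by
  set t := -Real.log |q| / π with ht'
  have habs : 0 < |q| := abs_pos.2 h0
  have ht : 0 < t := div_pos (neg_pos.2 (Real.log_neg habs h1)) Real.pi_pos
  have hnome : Real.exp (-π * t) = |q| := by
    rw [ht', show -π * (-Real.log |q| / π) = Real.log |q| by field_simp, Real.exp_log habs]
  have halg : IsAlgebraic ℚ (Real.exp (-π * t)) := by
    rw [hnome]
    rcases abs_choice q with h | h <;> rw [h]
    exacts [hq, hq.neg]
  obtain ⟨-, h3, h4⟩ := transcendental_theta ht halg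
  have hterm : ∀ n : ℤ, Real.exp (-π * t * (n : ℝ) ^ 2) = |q| ^ n.natAbs ^ 2 := fun n => by
    rw [← hnome, ← Real.exp_nat_mul, Nat.cast_pow, Nat.cast_natAbs, Int.cast_abs, sq_abs]
    ring_nf
  intro hS
  have hS' : IsAlgebraic ℚ (∑' n : ℤ, q ^ n.natAbs ^ 2) := by
    rw [tsum_int_sq h1]
    exact ((isAlgebraic_natCast (R := ℚ) (A := ℝ) 2).mul hS).sub isAlgebraic_one
  rcases lt_or_gt_of_ne h0 with hneg | hpos
  · refine h4 ?_
    convert hS' using 1
    refine tsum_congr fun n => ?_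
    rw [hterm, abs_of_neg hneg]
    have hpar : Even (n.natAbs ^ 2) ↔ Even n := by
      rw [Nat.even_pow' two_ne_zero, Int.natAbs_even]
    rcases Int.even_or_odd n with he | he
    · rw [he.neg_one_zpow, one_mul, Even.neg_pow (hpar.2 he)]
    · have ho : Odd (n.natAbs ^ 2) := Nat.not_even_iff_odd.1 fun hh =>
        Int.not_even_iff_odd.2 he (hpar.1 hh)
      rw [he.neg_one_zpow, ho.neg_pow]
      ring
  · refine h3 ?_
    convert hS' using 1
    exact tsum_congr fun n => by rw [hterm, abs_of_pos hpos]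

end FA.NesterenkoValues

end
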