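import Fermat.Agent.CMQuasiPeriods.Masser
import Fermat.Agent.RealPoints.Rectangular
import Fermat.Agent.Mazur.Wp.Series
import Mathlib.MeasureTheory.Integral.IntervalIntegral.FundThmCalculus
import Mathlib.MeasureTheory.Integral.DominatedConvergence
import Mathlib.NumberTheory.ModularForms.EisensteinSeries.E2.Summable

/-!
# `α` and `E₂`

For the lattice `c (ℤ τ + ℤ)` and the period `c` the constant `α` of the zeta function is
`π ² E₂ (τ) / (3 c ²)`: both are minus the mean of `℘` over a period.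
-/

set_option autoImplicit false

noncomputable section

namespace FA.NesterenkoValues

open Complex (I)
open Filter MeasureTheory
open FA.Mazur.Wp (latPair rowSum geoSq tpi hasSum_rows rowSum_neg rowSum_of_im_pos tpi_ne_zero
  mem_latPair)
open FA.Chudnovsky (Frame alpha)
open scoped Real Interval PeriodPair

theorem norm_cexp_tpi (w : ℂ) : ‖Complex.exp (tpi * w)‖ = Real.exp (-(2 * π * w.im)) := by
  rw [Complex.norm_exp]
  congr 1
  simp [tpi, Complex.mul_re, Complex.mul_im]

theorem norm_geoSq_le {u : ℂ} {r : ℝ} (hu : ‖u‖ ≤ r) (hr : r < 1) :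
    ‖geoSq u‖ ≤ r / (1 - r) ^ 2 := by
  rw [geoSq, norm_div, norm_pow]
  have h : 1 - r ≤ ‖1 - u‖ := by
    have := norm_sub_norm_le (1 : ℂ) u
    rw [norm_one] at this
    linarith
  gcongr
  · exact (norm_nonneg u).trans hu

theorem norm_rowSum_le {w : ℂ} {η : ℝ} (hη : 0 < η) (hw : η ≤ |w.im|) :
    ‖rowSum w‖ ≤ Real.exp (-(2 * π * |w.im|)) / (1 - Real.exp (-(2 * π * η))) ^ 2 := by
  wlog h : 0 < w.im generalizing w
  · have hne : w.im ≠ 0 := fun e => by rw [e, abs_zero] at hw; linarith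
    have hpos : 0 < (-w).im := by
      rw [Complex.neg_im]
      exact neg_pos.2 (lt_of_le_of_ne (not_lt.1 h) hne)
    have h1 := this (w := -w) (by rwa [Complex.neg_im, abs_neg]) hpos
    rwa [rowSum_neg, Complex.neg_im, abs_neg] at h1
  rw [rowSum_of_im_pos h, abs_of_pos h]
  rw [abs_of_pos h] at hw
  have hu := (norm_cexp_tpi w).le
  have hπ := Real.pi_pos
  have hlt : Real.exp (-(2 * π * η)) < 1 := Real.exp_lt_one_iff.2 (by nlinarith)
  have hle : Real.exp (-(2 * π * w.im)) ≤ Real.exp (-(2 * π * η)) :=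
    Real.exp_le_exp.2 (by nlinarith)
  refine (norm_geoSq_le hu (hle.trans_lt hlt)).trans ?_
  gcongr

theorem continuous_rowSum_line {w : ℂ} (hw : w.im ≠ 0) :
    Continuous fun t : ℝ => rowSum (w + t) := by
  wlog h : 0 < w.im generalizing w
  · have hpos : 0 < (-w).im := by
      rw [Complex.neg_im]
      exact neg_pos.2 (lt_of_le_of_ne (not_lt.1 h) hw)
    have h1 := (this (w := -w) hpos.ne' hpos).comp continuous_neg
    refine h1.congr fun t => ?_
    simp only [Function.comp_apply, Complex.ofReal_neg]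
    rw [← rowSum_neg]
    ring_nf
  have e : (fun t : ℝ => rowSum (w + t)) = fun t : ℝ => geoSq (Complex.exp (tpi * (w + t))) :=
    funext fun t => rowSum_of_im_pos (by simpa using h)
  rw [e]
  simp only [geoSq]
  refine Continuous.div (by fun_prop) (by fun_prop) fun t =>
    pow_ne_zero 2 (sub_ne_zero.2 fun e => ?_)
  have h1 := norm_cexp_tpi (w + t)
  rw [← e, norm_one, eq_comm, Real.exp_eq_one_iff] at h1
  simp only [Complex.add_im, Complex.ofReal_im, add_zero] at h1
  nlinarith [Real.pi_pos]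

/-- A row has mean zero. -/
theorem integral_rowSum {w : ℂ} (hw : w.im ≠ 0) : ∫ t in (0 : ℝ)..1, rowSum (w + t) = 0 := by
  obtain ⟨ε, hε, him⟩ : ∃ ε : ℤ, (ε = 1 ∨ ε = -1) ∧ 0 < ((ε : ℂ) * w).im := by
    rcases hw.lt_or_gt with h | h
    · exact ⟨-1, Or.inr rfl, by simpa using h⟩
    · exact ⟨1, Or.inl rfl, by simpa using h⟩
  set F : ℝ → ℂ := fun t => (ε : ℂ) / tpi * (1 / (1 - Complex.exp (tpi * ((ε : ℂ) * (w + t)))))
  have hne : ∀ t : ℝ, 1 - Complex.exp (tpi * ((ε : ℂ) * (w + t))) ≠ 0 := fun t => by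
    refine sub_ne_zero.2 fun e => ?_
    have h1 := norm_cexp_tpi ((ε : ℂ) * (w + t))
    rw [← e, norm_one, eq_comm, Real.exp_eq_one_iff] at h1
    simp only [Complex.mul_im, Complex.intCast_im, zero_mul, add_zero, Complex.intCast_re,
      Complex.add_im, Complex.ofReal_im] at h1
    simp only [Complex.mul_im, Complex.intCast_im, zero_mul, add_zero, Complex.intCast_re] at him
    nlinarith [Real.pi_pos]
  have hε2 : (ε : ℂ) * ε = 1 := by rcases hε with rfl | rfl <;> simp
  have hd : ∀ t : ℝ, HasDerivAt F (rowSum (w + t)) t := fun t => by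
    have h0 : HasDerivAt (fun s : ℂ => tpi * ((ε : ℂ) * (w + s))) (tpi * ε) (t : ℂ) := by
      simpa using (((hasDerivAt_id (t : ℂ)).const_add w).const_mul (ε : ℂ)).const_mul tpi
    have h1 := ((((h0.cexp).const_sub 1).inv (hne t)).const_mul ((ε : ℂ) / tpi)).comp_ofReal
    have hrow : rowSum (w + t) = geoSq (Complex.exp (tpi * ((ε : ℂ) * (w + t)))) := by
      rcases hε with rfl | rfl
      · rw [rowSum_of_im_pos (by simpa using him)]
        simp
      · rw [← rowSum_neg, rowSum_of_im_pos (by simpa using him)]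
        simp
    rw [hrow]
    simp only [F, one_div]
    refine h1.congr_deriv ?_
    rw [geoSq]
    generalize Complex.exp (tpi * ((ε : ℂ) * (w + t))) = u
    calc (ε : ℂ) / tpi * (- -(u * (tpi * ε)) / (1 - u) ^ 2) =
          ((ε : ℂ) * ε) * (tpi / tpi) * (u / (1 - u) ^ 2) := by ring
      _ = u / (1 - u) ^ 2 := by rw [hε2, div_self tpi_ne_zero, one_mul, one_mul]
  rw [intervalIntegral.integral_eq_sub_of_hasDerivAt (fun t _ => hd t)
    ((continuous_rowSum_line hw).intervalIntegrable _ _)]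
  simp only [F, Complex.ofReal_one, Complex.ofReal_zero, add_zero]
  rw [show tpi * ((ε : ℂ) * (w + 1)) = tpi * ((ε : ℂ) * w) + (ε : ℂ) * (2 * π * I) by
    rw [tpi]; ring, Complex.exp_add, Complex.exp_int_mul_two_pi_mul_I, mul_one, sub_self]

/-- The bound for the rows. -/
def rowBound (τ : UpperHalfPlane) (m : ℤ) : ℝ :=
  Real.exp (-(π * τ.im)) ^ m.natAbs / (1 - Real.exp (-(π * τ.im))) ^ 2

theorem summable_rowBound (τ : UpperHalfPlane) : Summable (rowBound τ) := by
  have hr1 : Real.exp (-(π * τ.im)) < 1 := Real.exp_lt_one_iff.2 (by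
    have := mul_pos Real.pi_pos τ.im_pos; linarith)
  refine Summable.div_const ?_ _
  exact Summable.of_nat_of_neg
    (by simpa using summable_geometric_of_lt_one (Real.exp_pos _).le hr1)
    (by simpa using summable_geometric_of_lt_one (Real.exp_pos _).le hr1)

theorem norm_row_le (τ : UpperHalfPlane) (m : ℤ) {a : ℝ}
    (ha : a = 0 ∧ m ≠ 0 ∨ a = 1 / 2) {w : ℂ} (hw : w.im = ((m : ℝ) + a) * τ.im) :
    ‖rowSum w‖ ≤ rowBound τ m := by
  have hy := τ.im_pos
  have hm : (m : ℝ) ≠ 0 → 1 ≤ |(m : ℝ)| := fun h => by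
    exact_mod_cast Int.one_le_abs (by exact_mod_cast h : m ≠ 0)
  have key : 1 / 2 ≤ |(m : ℝ) + a| ∧ |(m : ℝ)| ≤ 2 * |(m : ℝ) + a| := by
    rcases ha with ⟨rfl, h⟩ | rfl
    · have := hm (Int.cast_ne_zero.2 h)
      rw [add_zero]
      exact ⟨by linarith, by linarith⟩
    · rcases le_or_gt 0 m with h | h
      · have h1 : (0 : ℝ) ≤ m := Int.cast_nonneg h
        rw [abs_of_nonneg h1, abs_of_nonneg (by linarith)]
        exact ⟨by linarith, by linarith⟩
      · have h1 : (m : ℝ) ≤ -1 := by exact_mod_cast Int.le_sub_one_of_lt h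
        rw [abs_of_nonpos (by linarith), abs_of_nonpos (by linarith)]
        exact ⟨by linarith, by linarith⟩
  have him : |w.im| = |(m : ℝ) + a| * τ.im := by rw [hw, abs_mul, abs_of_pos hy]
  refine (norm_rowSum_le (η := τ.im / 2) (by positivity) (by rw [him]; nlinarith [key.1])).trans ?_
  rw [rowBound, show -(2 * π * (τ.im / 2)) = -(π * τ.im) by ring]
  refine div_le_div_of_nonneg_right ?_ (sq_nonneg _)
  rw [← Real.exp_nat_mul, Real.exp_le_exp, him, Nat.cast_natAbs, Int.cast_abs]
  have := mul_le_mul_of_nonneg_right key.2 (mul_nonneg Real.pi_pos.le hy.le)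
  linarith

theorem summable_rows (τ : UpperHalfPlane) : Summable fun m : ℤ => rowSum (m * τ) := by
  refine Summable.of_norm_bounded_eventually (summable_rowBound τ) ?_
  refine (Set.finite_singleton (0 : ℤ)).subset fun m hm => ?_
  by_contra h
  exact hm (norm_row_le τ m (a := 0) (Or.inl ⟨rfl, by simpa using h⟩) (by simp))

/-- The sum of the rows is `- E₂ / 12`. -/
theorem tsum_rows (τ : UpperHalfPlane) :
    ∑' m : ℤ, rowSum (m * τ) = -(EisensteinSeries.E2 τ / 12) := by
  have e : ∀ m : ℤ, EisensteinSeries.e2Summand m τ = tpi ^ 2 * rowSum (m * τ) := fun m => by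
    rw [rowSum, mul_div_cancel₀ _ (pow_ne_zero 2 tpi_ne_zero), EisensteinSeries.e2Summand]
    refine tsum_congr fun n => ?_
    simp [EisensteinSeries.eisSummand]
  have hG : EisensteinSeries.G2 τ = tpi ^ 2 * ∑' m : ℤ, rowSum (m * τ) := by
    rw [EisensteinSeries.G2, ← tsum_mul_left]
    simp only [e]
    exact tsum_eq_of_summable_unconditional ((summable_rows τ).mul_left _)
  have hπ : (π : ℂ) ≠ 0 := Complex.ofReal_ne_zero.2 Real.pi_ne_zero
  simp only [EisensteinSeries.E2, Pi.smul_apply, smul_eq_mul, hG, riemannZeta_two]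
  generalize ∑' m : ℤ, rowSum (m * τ) = T
  rw [tpi, mul_pow, mul_pow, Complex.I_sq]
  field_simp
  ring

/-- The frame with period `c`. -/
def cFrame (τ : UpperHalfPlane) {c : ℂ} (hc : c ≠ 0) :
    Frame (FA.JInj.scalePair (latPair τ) c hc) where
  ω := c
  τ := τ
  hω := hc
  hτ := τ.im_pos
  mem x := by
    rw [FA.JInj.mem_scalePair]
    constructor
    · rintro ⟨y, hy, rfl⟩
      obtain ⟨m, n, rfl⟩ := mem_latPair.1 hy
      exact ⟨n, m, by ring⟩
    · rintro ⟨m, n, rfl⟩
      exact ⟨_, mem_latPair.2 ⟨n, m, rfl⟩, by ring⟩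

/-- **`α = π ² E₂ (τ) / (3 c ²)`.** -/
theorem alpha_cFrame (τ : UpperHalfPlane) {c : ℂ} (hc : c ≠ 0) :
    alpha (cFrame τ hc) = (π : ℂ) ^ 2 * EisensteinSeries.E2 τ / (3 * c ^ 2) := by
  set P := latPair τ
  set Φ := cFrame τ hc
  set z₀ : ℂ := (τ : ℂ) / 2 with hz₀
  have him : ∀ (m : ℤ) (t : ℝ), (z₀ + t + m * τ).im = ((m : ℝ) + 1 / 2) * τ.im := fun m t => by
    simp [hz₀]
    ring
  have hne : ∀ m : ℤ, ((m : ℝ) + 1 / 2) * τ.im ≠ 0 := fun m => by
    refine mul_ne_zero (fun h => ?_) τ.im_pos.ne'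
    have h2 : (2 * m + 1 : ℤ) = 0 := by
      have h3 : 2 * (m : ℝ) + 1 = 0 := by linarith
      exact_mod_cast h3
    omega
  have hoff : ∀ t : ℝ, z₀ + t ∉ P.lattice := fun t h => by
    obtain ⟨m, n, hmn⟩ := mem_latPair.1 h
    have h1 := congrArg Complex.im hmn
    have h2 := him (-m) t
    simp [hz₀] at h1 h2
    exact hne (-m) (by push_cast; nlinarith [h1])
  set S := ∑' m : ℤ, rowSum (m * τ)
  have hsum : ∀ t : ℝ, HasSum (fun m : ℤ => rowSum (z₀ + t + m * τ))
      (P.weierstrassP (z₀ + t) / tpi ^ 2 + S) := fun t => by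
    refine ((hasSum_rows τ (z₀ + t)).add (summable_rows τ).hasSum).congr_fun fun m => ?_
    ring
  have hint : HasSum (fun m : ℤ => ∫ t in (0 : ℝ)..1, rowSum (z₀ + t + m * τ))
      (∫ t in (0 : ℝ)..1, (P.weierstrassP (z₀ + t) / tpi ^ 2 + S)) := by
    refine intervalIntegral.hasSum_integral_of_dominated_convergence
      (fun m _ => rowBound τ m) (fun m => ?_) (fun m => ?_) (ae_of_all _ fun t _ =>
        summable_rowBound τ) (by simp) (ae_of_all _ fun t _ => hsum t)
    · refine Continuous.aestronglyMeasurable ?_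
      refine (continuous_rowSum_line (w := z₀ + m * τ) ?_).congr fun t => ?_
      · simpa [hz₀] using (show z₀.im + (m : ℝ) * τ.im ≠ 0 by
          rw [show z₀.im + (m : ℝ) * τ.im = ((m : ℝ) + 1 / 2) * τ.im by simp [hz₀]; ring]
          exact hne m)
      · ring_nf
    · exact ae_of_all _ fun t _ => norm_row_le τ m (Or.inr rfl) (him m t)
  have hzero : (∫ t in (0 : ℝ)..1, (P.weierstrassP (z₀ + t) / tpi ^ 2 + S)) = 0 := by
    refine hint.unique ?_
    refine hasSum_zero.congr_fun fun m => ?_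
    rw [← integral_rowSum (w := z₀ + m * τ) (by
      have h := him m 0
      simp only [Complex.ofReal_zero, add_zero] at h
      rw [h]; exact hne m)]
    exact intervalIntegral.integral_congr fun t _ => by ring_nf
  have hcont : Continuous fun t : ℝ => P.weierstrassP (z₀ + t) :=
    P.analyticOnNhd_weierstrassP.continuousOn.comp_continuous (by fun_prop) hoff
  have hd : ∀ t : ℝ, HasDerivAt (fun s : ℝ => FA.Chudnovsky.zt Φ (c * (z₀ + s)))
      (c * (-((c ^ 2)⁻¹ * P.weierstrassP (z₀ + t)) - alpha Φ)) t := fun t => by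
    have hnot : c * (z₀ + t) ∉ (FA.JInj.scalePair P c hc).lattice := fun h => by
      obtain ⟨y, hy, e⟩ := FA.JInj.mem_scalePair.1 h
      exact hoff t (mul_left_cancel₀ hc e ▸ hy)
    have h1 := ((FA.Chudnovsky.hasDerivAt_zt Φ hnot).comp (t : ℂ)
      (((hasDerivAt_id (t : ℂ)).const_add z₀).const_mul c)).comp_ofReal
    refine h1.congr_deriv ?_
    rw [FA.RealPoints.wp_scalePair]
    ring
  have hftc := intervalIntegral.integral_eq_sub_of_hasDerivAt (a := (0 : ℝ)) (b := 1)
    (fun t _ => hd t) ((by fun_prop : Continuous fun t : ℝ =>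
      c * (-((c ^ 2)⁻¹ * P.weierstrassP (z₀ + t)) - alpha Φ)).intervalIntegrable _ _)
  have hper : FA.Chudnovsky.zt Φ (c * (z₀ + (1 : ℝ))) = FA.Chudnovsky.zt Φ (c * z₀) := by
    rw [Complex.ofReal_one, mul_add, mul_one]
    exact FA.Chudnovsky.zt_add_period Φ _
  rw [hper, Complex.ofReal_zero, add_zero, sub_self] at hftc
  rw [intervalIntegral.integral_add (hcont.div_const _ |>.intervalIntegrable _ _)
    (intervalIntegrable_const), intervalIntegral.integral_div,
    intervalIntegral.integral_const] at hzero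
  rw [intervalIntegral.integral_const_mul, intervalIntegral.integral_sub
    ((by fun_prop : Continuous fun t : ℝ =>
      -((c ^ 2)⁻¹ * P.weierstrassP (z₀ + t))).intervalIntegrable _ _) intervalIntegrable_const,
    intervalIntegral.integral_neg, intervalIntegral.integral_const_mul,
    intervalIntegral.integral_const] at hftc
  simp only [sub_zero, one_smul] at hzero hftc
  have hS : S = -(EisensteinSeries.E2 τ / 12) := tsum_rows τ
  have htpi := tpi_ne_zero
  have hI : (∫ t in (0 : ℝ)..1, P.weierstrassP (z₀ + t)) = -(tpi ^ 2 * S) := by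
    field_simp at hzero
    linear_combination hzero
  rw [hI, hS, tpi, mul_pow, mul_pow, Complex.I_sq] at hftc
  have h2 := (mul_eq_zero.1 hftc).resolve_left hc
  field_simp at h2 ⊢
  linear_combination (-1 / 4 : ℂ) * h2

end FA.NesterenkoValues

end
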