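import Fermat.Agent.NesterenkoValues.AlphaE2
import Fermat.Agent.CMQuasiPeriods.GammaProducts
import Fermat.Agent.Nesterenko.Main
import Fermat.Agent.Root.SummaryCMPeriods

/-!
# Nesterenko's theorem at CM points

At a CM point `E₂, E₄, E₆` are algebraic over `ℚ (π, c)`, `c` a period, so `e ^ (2 π i τ), π, c` are
algebraically independent.
-/

set_option autoImplicit false
set_option linter.style.haveILetI false

noncomputable section

namespace FA.NesterenkoValues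

open Complex (I)
open NumberField Module
open FA.Mazur.Wp (latPair g₂_latPair g₃_latPair tpi tpi_ne_zero)
open FA.CMQuasiPeriods (HasCM exists_alpha_relation algebraicIndependent_pi_period)
open FA.BrownawellWaldschmidt (algebraicIndependent_pair)
open scoped Real UpperHalfPlane

local notation "ℚ⟪" s "⟫" => IntermediateField.adjoin ℚ (s : Set ℂ)
local notation "qP" => Function.Periodic.qParam 1

theorem isAlgebraic_left (u v : ℂ) : IsAlgebraic ℚ⟪{u, v}⟫ u :=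
  isAlgebraic_algebraMap (⟨u, IntermediateField.subset_adjoin ℚ _ (Set.mem_insert u _)⟩ :
    ℚ⟪{u, v}⟫)

theorem isAlgebraic_right (u v : ℂ) : IsAlgebraic ℚ⟪{u, v}⟫ v :=
  isAlgebraic_algebraMap (⟨v, IntermediateField.subset_adjoin ℚ _
    (Set.mem_insert_of_mem u rfl)⟩ : ℚ⟪{u, v}⟫)

theorem hasCM_scalePair {τ : ℍ} {a b k : ℤ} (ha : a ≠ 0)
    (h : (a : ℂ) * (τ : ℂ) ^ 2 + b * (τ : ℂ) + k = 0) {c : ℂ} (hc : c ≠ 0) :
    HasCM (FA.JInj.scalePair (latPair τ) c hc) := by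
  refine ⟨(a : ℂ) * τ, by simpa using ⟨ha, τ.im_pos.ne'⟩, fun l hl => ?_⟩
  obtain ⟨y, hy, rfl⟩ := FA.JInj.mem_scalePair.1 hl
  obtain ⟨m, n, rfl⟩ := FA.Mazur.Wp.mem_latPair.1 hy
  refine FA.JInj.mem_scalePair.2 ⟨_, FA.Mazur.Wp.mem_latPair.2 ⟨n * a - m * b, -(m * k), rfl⟩, ?_⟩
  push_cast
  linear_combination -(c * (m : ℂ)) * h

/-- `E₆`, `E₄`, `E₂` are algebraic over a field with `π` and a period. -/
theorem isAlgebraic_values {τ : ℍ} {c : ℂ} (hc : c ≠ 0)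
    (hcm : HasCM (FA.JInj.scalePair (latPair τ) c hc))
    (h₂ : IsAlgebraic ℚ (FA.JInj.scalePair (latPair τ) c hc).g₂)
    (h₃ : IsAlgebraic ℚ (FA.JInj.scalePair (latPair τ) c hc).g₃) {K : IntermediateField ℚ ℂ}
    (hπ : IsAlgebraic K (π : ℂ)) (hcK : IsAlgebraic K c) :
    IsAlgebraic K (ModularForm.E₆ τ) ∧ IsAlgebraic K (ModularForm.E₄ τ) ∧
      IsAlgebraic K (EisensteinSeries.E2 τ) := by
  have up : ∀ {x : ℂ}, IsAlgebraic ℚ x → IsAlgebraic K x := fun h => h.tower_top _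
  have htpi : IsAlgebraic K tpi := by
    rw [tpi]
    exact (((up (isAlgebraic_natCast 2)).mul hπ)).mul (up FA.Chudnovsky.isAlgebraic_I)
  have hπ0 : (π : ℂ) ≠ 0 := Complex.ofReal_ne_zero.2 Real.pi_ne_zero
  have ht := tpi_ne_zero
  obtain ⟨A, B, hA, hB, hrel⟩ := exists_alpha_relation (cFrame τ hc) h₂ h₃ hcm
  rw [alpha_cFrame τ hc] at hrel
  refine ⟨?_, ?_, ?_⟩
  · have e : ModularForm.E₆ τ =
        ((-216 : ℤ) : ℂ) * (FA.JInj.scalePair (latPair τ) c hc).g₃ * c ^ 6 * (tpi ^ 6)⁻¹ := by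
      rw [FA.JInj.g₃_scalePair, g₃_latPair]
      push_cast
      field_simp
    rw [e]
    exact (((up (isAlgebraic_intCast (-216))).mul (up h₃)).mul (hcK.pow 6)).mul (htpi.pow 6).inv
  · have e : ModularForm.E₄ τ =
        ((12 : ℕ) : ℂ) * (FA.JInj.scalePair (latPair τ) c hc).g₂ * c ^ 4 * (tpi ^ 4)⁻¹ := by
      rw [FA.JInj.g₂_scalePair, g₂_latPair]
      push_cast
      field_simp
    rw [e]
    exact (((up (isAlgebraic_natCast 12)).mul (up h₂)).mul (hcK.pow 4)).mul (htpi.pow 4).inv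
  · have e : EisensteinSeries.E2 τ =
        ((3 : ℕ) : ℂ) * (A * c ^ 2 + B * π) * ((π : ℂ) ^ 2)⁻¹ := by
      have hω : (cFrame τ hc).ω = c := rfl
      rw [hω] at hrel
      push_cast
      field_simp at hrel ⊢
      linear_combination hrel
    rw [e]
    exact ((up (isAlgebraic_natCast 3)).mul (((up hA).mul (hcK.pow 2)).add ((up hB).mul hπ))).mul
      (hπ.pow 2).inv

/-- The three values make `w` independent of a pair over which `π` and a period are algebraic. -/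
theorem algebraicIndependent_of_period {τ : ℍ} {c : ℂ} (hc : c ≠ 0)
    (hcm : HasCM (FA.JInj.scalePair (latPair τ) c hc))
    (h₂ : IsAlgebraic ℚ (FA.JInj.scalePair (latPair τ) c hc).g₂)
    (h₃ : IsAlgebraic ℚ (FA.JInj.scalePair (latPair τ) c hc).g₃) {u v w : ℂ}
    (huv : AlgebraicIndependent ℚ ![u, v]) (hπ : IsAlgebraic ℚ⟪{u, v}⟫ (π : ℂ))
    (hcK : IsAlgebraic ℚ⟪{u, v}⟫ c)
    (hq : IsAlgebraic ℚ⟪{u, v}⟫ w → IsAlgebraic ℚ⟪{u, v}⟫ (qP τ)) :
    AlgebraicIndependent ℚ ![w, u, v] := by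
  obtain ⟨h6, h4, h2⟩ := isAlgebraic_values hc hcm h₂ h₃ hπ hcK
  refine FA.Nesterenko.algebraicIndependent_triple huv fun hw => ?_
  obtain ⟨i, hi⟩ := FA.Nesterenko.exists_transcendental_over_pair
    (ω := fun i => FA.Nesterenko.fn i (qP τ))
    (fun ε hε hε1 => FA.Nesterenko.small_values_at τ hε hε1) huv
  obtain ⟨e6, e4, e2⟩ := FA.Nesterenko.fn_qParam τ
  refine hi ?_
  fin_cases i
  · simpa [e6] using h6
  · simpa [e4] using h4
  · simpa [e2] using h2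
  · simpa [FA.Nesterenko.fn_three] using hq hw

/-- **`e ^ (2 π i τ)`, `π` and a period at a CM point.** -/
theorem algebraicIndependent_cm {τ : ℍ} {a b k : ℤ} (ha : a ≠ 0)
    (h : (a : ℂ) * (τ : ℂ) ^ 2 + b * (τ : ℂ) + k = 0) {c : ℂ} (hc : c ≠ 0)
    (h₂ : IsAlgebraic ℚ (FA.JInj.scalePair (latPair τ) c hc).g₂)
    (h₃ : IsAlgebraic ℚ (FA.JInj.scalePair (latPair τ) c hc).g₃) :
    AlgebraicIndependent ℚ ![Complex.exp (2 * π * I * τ), (π : ℂ), c] := by
  have hcm := hasCM_scalePair ha h hc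
  have hmem : c ∈ (FA.JInj.scalePair (latPair τ) c hc).lattice :=
    (cFrame τ hc).ω_mem
  refine algebraicIndependent_of_period hc hcm h₂ h₃
    (algebraicIndependent_pi_period h₂ h₃ hcm hmem hc)
    (isAlgebraic_left _ _) (isAlgebraic_right _ _) fun hw => ?_
  simpa [Function.Periodic.qParam] using hw

/-- `q` at `i √r`. -/
theorem qParam_sqrt {r : ℝ} {τ : ℍ} (hτ : (τ : ℂ) = I * (√r : ℝ)) :
    qP τ = ((((Real.exp (π * √r)) : ℝ) : ℂ) ^ 2)⁻¹ := by
  rw [Function.Periodic.qParam, hτ, Complex.ofReal_exp, ← Complex.exp_nat_mul, ← Complex.exp_neg]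
  congr 1
  push_cast
  linear_combination (2 * (π : ℂ) * ((√r : ℝ) : ℂ)) * Complex.I_mul_I

/-- **`π` and `e ^ (π √d)`.** -/
theorem algebraicIndependent_pi_exp_sqrt {d : ℕ} (hd : 0 < d) :
    AlgebraicIndependent ℚ ![π, Real.exp (π * √d)] := by
  set τ : ℍ := ⟨I * (√(d : ℝ) : ℝ), by simpa using hd⟩
  have hτ : (τ : ℂ) = I * (√(d : ℝ) : ℝ) := rfl
  have hquad : ((1 : ℤ) : ℂ) * (τ : ℂ) ^ 2 + ((0 : ℤ) : ℂ) * τ + ((d : ℤ) : ℂ) = 0 := by
    rw [hτ, mul_pow, Complex.I_sq, ← Complex.ofReal_pow, Real.sq_sqrt (Nat.cast_nonneg _)]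
    simp
  obtain ⟨c, hc, h₂, h₃⟩ := FA.SchneiderLang.exists_scale_algebraic τ
    (FA.SchneiderLang.isAlgebraic_jfun_of_quadratic τ one_ne_zero hquad)
  have hcm := hasCM_scalePair one_ne_zero hquad hc
  have h := algebraicIndependent_of_period (τ := τ) (w := ((Real.exp (π * √d) : ℝ) : ℂ))
    hc hcm h₂ h₃
    (algebraicIndependent_pi_period h₂ h₃ hcm (cFrame τ hc).ω_mem hc)
    (isAlgebraic_left _ _) (isAlgebraic_right _ _)
    fun hw => by rw [qParam_sqrt hτ]; exact (hw.pow 2).inv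
  refine AlgebraicIndependent.of_comp (Complex.ofRealAm.restrictScalars ℚ) ?_
  have h1 := h.comp ![1, 0] (by decide)
  convert h1 using 1
  ext i
  fin_cases i <;> rfl

/-- **`π`, `e ^ (π √|D|)` and the product of Chowla and Selberg.** -/
theorem algebraicIndependent_pi_exp_gammaProduct (K : Type*) [Field K] [NumberField K]
    [IsTotallyComplex K] (hK : finrank ℚ K = 2) :
    haveI : NeZero (discr K).natAbs := ⟨Int.natAbs_ne_zero.mpr (discr_ne_zero K)⟩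
    ∃ χ : DirichletCharacter ℂ (discr K).natAbs, χ.IsPrimitive ∧ χ ^ 2 = 1 ∧ χ.Odd ∧
      (∀ z : ℂ, 1 < z.re →
        dedekindZeta K z = riemannZeta z * DirichletCharacter.LFunction χ z) ∧
      AlgebraicIndependent ℚ ![π, Real.exp (π * √((discr K).natAbs : ℝ)),
        ∏ a : ZMod (discr K).natAbs, Real.Gamma ((a.val : ℝ) / (discr K).natAbs) ^
          ((Units.torsionOrder K : ℝ) * (χ a).re)] := by
  obtain ⟨d, hdsq, hd0, s, hs⟩ := FA.ChowlaSelberg.exists_sq_eq_intCast_neg K hK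
  haveI : NeZero (discr K).natAbs := ⟨Int.natAbs_ne_zero.mpr (discr_ne_zero K)⟩
  obtain ⟨χ, hprim, hq, hodd, hζ, -, hper⟩ := FA.Summary.chowla_selberg_periods K hK
  refine ⟨χ, hprim, hq, hodd, hζ, ?_⟩
  set G : ℝ := ∏ a : ZMod (discr K).natAbs,
    Real.Gamma ((a.val : ℝ) / (discr K).natAbs) ^ ((Units.torsionOrder K : ℝ) * (χ a).re) with hG
  set X : ℝ := Real.exp (π * √((discr K).natAbs : ℝ))
  suffices h : AlgebraicIndependent ℚ ![(X : ℂ), (π : ℂ), (G : ℂ)] by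
    refine AlgebraicIndependent.of_comp (Complex.ofRealAm.restrictScalars ℚ) ?_
    have h1 := h.comp ![1, 0, 2] (by decide)
    convert h1 using 1
    ext i
    fin_cases i <;> rfl
  obtain ⟨e, he⟩ := FA.FieldClassBound.exists_emb hd0 hs
  have him : 0 < (e s).im := by
    rw [he]
    simpa using Real.sqrt_pos.2 (neg_pos.2 (Int.cast_lt_zero.2 hd0 : (d : ℝ) < 0))
  set τ : ℍ := ⟨e s, him⟩
  have hτ : (τ : ℂ) = I * (√(-(d : ℝ)) : ℝ) := he
  have hquad : ((1 : ℤ) : ℂ) * (τ : ℂ) ^ 2 + ((0 : ℤ) : ℂ) * τ + ((-d : ℤ) : ℂ) = 0 := by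
    have h1 : e s ^ 2 = (d : ℂ) := by rw [← map_pow, hs, map_intCast]
    show ((1 : ℤ) : ℂ) * e s ^ 2 + _ + _ = 0
    rw [h1]
    simp
  obtain ⟨c, hc, h₂, h₃⟩ := FA.SchneiderLang.exists_scale_algebraic τ
    (FA.SchneiderLang.isAlgebraic_jfun_of_quadratic τ one_ne_zero hquad)
  set L := FA.JInj.scalePair (latPair τ) c hc
  have e₁ : L.ω₁ = c * τ := rfl
  have e₂ : L.ω₂ = c := mul_one c
  have hcm : HasCM L := hasCM_scalePair one_ne_zero hquad hc
  obtain ⟨hΩ0, -, hperiod⟩ := hper e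
  set Ω : ℝ := (√π)⁻¹ * ∏ a : ZMod (discr K).natAbs,
    Real.Gamma ((a.val : ℝ) / (discr K).natAbs) ^
      ((Units.torsionOrder K : ℝ) * (χ a).re / (4 * classNumber K)) with hΩ
  have hA := hperiod L h₂ h₃ ⟨s, by
    rw [e₁, e₂, mul_div_cancel_left₀ _ hc]⟩ c (e₂ ▸ L.ω₂_mem_lattice)
  have hpair : AlgebraicIndependent ℚ ![(π : ℂ), (G : ℂ)] := by
    refine algebraicIndependent_pair FA.Chudnovsky.transcendental_pi fun hGalg => ?_
    have hπ := FA.BrownawellWaldschmidt.isIntegral_self (π : ℂ)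
    have hΩint : IsIntegral (IntermediateField.adjoin ℚ ({(π : ℂ)} : Set ℂ)) (Ω : ℂ) := by
      refine IsIntegral.of_pow (n := 4 * classNumber K) (Nat.mul_pos four_pos Fintype.card_pos) ?_
      rw [← Complex.ofReal_pow, hΩ, FA.CMQuasiPeriods.gammaProduct_eq K χ, ← hG,
        Complex.ofReal_div, Complex.ofReal_pow, div_eq_mul_inv]
      exact hGalg.isIntegral.mul (hπ.pow _).inv
    refine FA.CMQuasiPeriods.not_isIntegral_cm_period h₂ h₃ hcm (e₂ ▸ L.ω₂_mem_lattice) hc ?_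
    rw [show c = c / ((π : ℂ) * Ω) * ((π : ℂ) * Ω) by
      rw [div_mul_cancel₀]
      exact mul_ne_zero (Complex.ofReal_ne_zero.2 Real.pi_ne_zero) hΩ0]
    exact hA.isIntegral.tower_top.mul (hπ.mul hΩint)
  have hmemπ := isAlgebraic_left (π : ℂ) (G : ℂ)
  have hmemG := isAlgebraic_right (π : ℂ) (G : ℂ)
  have hΩa : IsAlgebraic ℚ⟪{(π : ℂ), (G : ℂ)}⟫ (Ω : ℂ) := by
    refine IsAlgebraic.of_pow (Nat.mul_pos four_pos (Fintype.card_pos (α := ClassGroup (𝓞 K)))) ?_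
    rw [← Complex.ofReal_pow, show Fintype.card (ClassGroup (𝓞 K)) = classNumber K from rfl, hΩ,
      FA.CMQuasiPeriods.gammaProduct_eq K χ, ← hG, Complex.ofReal_div, Complex.ofReal_pow,
      div_eq_mul_inv]
    exact hmemG.mul (hmemπ.pow _).inv
  have hcK : IsAlgebraic ℚ⟪{(π : ℂ), (G : ℂ)}⟫ c := by
    rw [show c = c / ((π : ℂ) * Ω) * ((π : ℂ) * Ω) by
      rw [div_mul_cancel₀]
      exact mul_ne_zero (Complex.ofReal_ne_zero.2 Real.pi_ne_zero) hΩ0]
    exact (hA.tower_top _).mul (hmemπ.mul hΩa)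
  refine algebraicIndependent_of_period hc hcm h₂ h₃ hpair hmemπ hcK fun hw => ?_
  rw [qParam_sqrt hτ]
  have hnd : ((discr K).natAbs : ℝ) = -((FA.FieldClassBound.discK d : ℤ) : ℝ) := by
    rw [FA.ChowlaSelberg.discr_eq_discK hK hdsq hd0 hs, Nat.cast_natAbs, Int.cast_abs,
      abs_of_neg (Int.cast_lt_zero.2 (FA.FieldClassBound.discK_neg hd0))]
  rw [FA.FieldClassBound.discK] at hnd
  refine (IsAlgebraic.pow ?_ 2).inv
  split_ifs at hnd with hmod
  · simp only [X, hnd] at hw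
    exact hw
  · simp only [X, hnd] at hw
    rw [show -(((4 * d : ℤ)) : ℝ) = 2 ^ 2 * -(d : ℝ) by push_cast; ring,
      Real.sqrt_mul (by norm_num), Real.sqrt_sq zero_le_two] at hw
    refine IsAlgebraic.of_pow two_pos ?_
    rw [← Complex.ofReal_pow, ← Real.exp_nat_mul]
    rw [show ((2 : ℕ) : ℝ) * (π * √(-(d : ℝ))) = π * (2 * √(-(d : ℝ))) by push_cast; ring]
    exact hw

end FA.NesterenkoValues

end
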