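import Fermat.Agent.NesterenkoValues.AlgebraicNome
import Fermat.Agent.Viazovska.Forms

/-!
# The theta constants and the product of Euler at a complex algebraic nome

The expressions of `θ₂⁴, θ₃⁴, θ₄⁴` by `θ₃(2τ)` and `θ₂(2τ)` hold on the imaginary axis, hence on the
upper half plane, where `E₄` and `E₆` are polynomials in them. So two of the theta constants at an
algebraic nome are algebraically independent, and `∏ (1 - q ^ n)` is transcendental.
-/

set_option autoImplicit false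

noncomputable section

namespace FA.NesterenkoValues

open Complex (I)
open FA.Gleason (thetaA thetaB)
open FA.Viazovska (thetaFourthTwo thetaFourthFour)
open FA.ThetaAGM (thetaTwo thetaThree thetaFour)
open scoped Real

/-- The identity theorem from the imaginary axis. -/
theorem eq_of_eq_on_axis {f g : ℂ → ℂ} (hf : ∀ z : ℂ, 0 < z.im → DifferentiableAt ℂ f z)
    (hg : ∀ z : ℂ, 0 < z.im → DifferentiableAt ℂ g z)
    (h : ∀ t : ℝ, 0 < t → f ((t : ℂ) * I) = g ((t : ℂ) * I)) {τ : ℂ} (hτ : 0 < τ.im) :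
    f τ = g τ := by
  have hU : IsOpen {z : ℂ | 0 < z.im} := isOpen_lt continuous_const Complex.continuous_im
  have han : ∀ {F : ℂ → ℂ}, (∀ z : ℂ, 0 < z.im → DifferentiableAt ℂ F z) →
      AnalyticOnNhd ℂ F {z : ℂ | 0 < z.im} := fun hF =>
    DifferentiableOn.analyticOnNhd (fun z hz => (hF z hz).differentiableWithinAt) hU
  refine AnalyticOnNhd.eqOn_of_preconnected_of_frequently_eq (han hf) (han hg)
    (convex_halfSpace_im_gt 0).isPreconnected (show I ∈ {z : ℂ | 0 < z.im} by simp) ?_ hτ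
  have htend : Filter.Tendsto (fun t : ℝ => (t : ℂ) * I) (nhdsWithin 1 {(1 : ℝ)}ᶜ)
      (nhdsWithin I {I}ᶜ) := by
    refine tendsto_nhdsWithin_iff.2 ⟨?_, ?_⟩
    · refine Filter.Tendsto.mono_left ?_ nhdsWithin_le_nhds
      have hc : Continuous fun t : ℝ => (t : ℂ) * I := by fun_prop
      simpa using hc.tendsto 1
    · filter_upwards [self_mem_nhdsWithin] with t ht
      intro hc
      refine ht ?_
      have := congrArg Complex.im hc
      simpa using this
  refine htend.frequently (Filter.Eventually.frequently ?_)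
  filter_upwards [mem_nhdsWithin_of_mem_nhds (lt_mem_nhds (zero_lt_one' ℝ))] with t ht
  exact h t ht

theorem thetaA_axis (t : ℝ) : thetaA ((t : ℂ) * I) = (thetaThree (2 * t) : ℂ) := by
  rw [thetaA, FA.ThetaAGM.thetaThree_eq]
  push_cast
  ring_nf

theorem thetaB_axis (t : ℝ) : thetaB ((t : ℂ) * I) = (thetaTwo (2 * t) : ℂ) := by
  rw [thetaB, jacobiTheta₂, ← tsum_mul_left, thetaTwo, Complex.ofReal_tsum]
  refine tsum_congr fun n => ?_
  rw [jacobiTheta₂_term, ← Complex.exp_add, Complex.ofReal_exp]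
  congr 1
  push_cast
  linear_combination ((π : ℂ) * t * (2 * (n : ℂ) ^ 2 + 2 * n + 1 / 2)) * Complex.I_mul_I

/-- The standard theta constants at `τ`, as series in the nome. -/
theorem fourth_powers {τ : ℂ} (hτ : 0 < τ.im) :
    thetaB (τ / 2) ^ 4 = thetaFourthTwo τ ∧ jacobiTheta (τ + 1) ^ 4 = thetaFourthFour τ ∧
      jacobiTheta τ ^ 4 = thetaFourthTwo τ + thetaFourthFour τ := by
  have hd := fun (z : ℂ) (hz : 0 < z.im) => FA.Viazovska.differentiableAt_thetaFourth hz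
  have d1 : ∀ z : ℂ, 0 < z.im → DifferentiableAt ℂ (fun w => thetaB (w / 2) ^ 4) z := fun z hz =>
    ((FA.Gleason.differentiableAt_thetaB (τ := z / 2) (by
      rw [Complex.div_ofNat_im]; positivity)).comp z (differentiableAt_id.div_const (2 : ℂ))).pow 4
  have d2 : ∀ z : ℂ, 0 < z.im → DifferentiableAt ℂ (fun w => jacobiTheta (w + 1) ^ 4) z :=
    fun z hz => ((differentiableAt_jacobiTheta (τ := z + 1) (by simpa using hz)).comp z
      (differentiableAt_id.add_const (1 : ℂ))).pow 4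
  have d3 : ∀ z : ℂ, 0 < z.im → DifferentiableAt ℂ (fun w => jacobiTheta w ^ 4) z :=
    fun z hz => (differentiableAt_jacobiTheta hz).pow 4
  refine ⟨eq_of_eq_on_axis d1 (fun z hz => (hd z hz).1) (fun t ht => ?_) hτ,
    eq_of_eq_on_axis d2 (fun z hz => (hd z hz).2) (fun t ht => ?_) hτ,
    eq_of_eq_on_axis (g := fun w => thetaFourthTwo w + thetaFourthFour w) d3
      (fun z hz => (hd z hz).1.add (hd z hz).2) (fun t ht => ?_) hτ⟩
  all_goals
    have ha := FA.ThetaAGM.sq_add_sq ht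
    have hs := FA.ThetaAGM.sq_sub_sq ht
    have hq := FA.ThetaAGM.quartic ht
  · simp only [thetaFourthTwo, thetaA_axis, thetaB_axis,
      show (t : ℂ) * I / 2 = ((t / 2 : ℝ) : ℂ) * I by push_cast; ring,
      show 2 * (t / 2) = t by ring]
    norm_cast
    rw [show 4 * thetaThree (2 * t) ^ 2 * thetaTwo (2 * t) ^ 2 =
      (2 * thetaThree (2 * t) ^ 2) * (2 * thetaTwo (2 * t) ^ 2) by ring, ← ha, ← hs]
    linear_combination hq
  · simp only [thetaFourthFour, thetaA_axis, thetaB_axis, ← FA.ThetaAGM.thetaFour_eq]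
    norm_cast
    rw [show thetaThree (2 * t) ^ 2 - thetaTwo (2 * t) ^ 2 = thetaFour t ^ 2 by linarith]
    ring
  · simp only [thetaFourthTwo, thetaFourthFour, thetaA_axis, thetaB_axis,
      ← FA.ThetaAGM.thetaThree_eq]
    norm_cast
    rw [show thetaThree t ^ 4 = (thetaThree t ^ 2) ^ 2 by ring,
      show thetaThree t ^ 2 = thetaThree (2 * t) ^ 2 + thetaTwo (2 * t) ^ 2 by linarith]
    ring

/-- `θ₃` as a series in the nome. -/
theorem jacobiTheta_nome {τ : ℂ} (hτ : 0 < τ.im) {q : ℂ} (hq : Complex.exp (π * I * τ) = q) :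
    jacobiTheta τ = 2 * ∑' n : ℕ, q ^ n ^ 2 - 1 := by
  have h : ∀ n : ℕ, Complex.exp (π * I * ((n : ℂ) + 1) ^ 2 * τ) = q ^ (n + 1) ^ 2 := fun n => by
    rw [← hq, ← Complex.exp_nat_mul]
    push_cast
    ring_nf
  have hs : HasSum (fun n : ℕ => q ^ (n + 1) ^ 2) ((jacobiTheta τ - 1) / 2) :=
    (hasSum_nat_jacobiTheta hτ).congr_fun fun n => (h n).symm
  have h0 := (hasSum_nat_add_iff (f := fun n : ℕ => q ^ n ^ 2) 1).1 hs
  rw [h0.tsum_eq]
  simp
  ring

/-- `θ₂` as a series in the nome. -/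
theorem thetaB_half_nome {τ : ℂ} (hτ : 0 < τ.im) {q : ℂ} (hq : Complex.exp (π * I * τ) = q) :
    thetaB (τ / 2) = 2 * Complex.exp (π * I * τ / 4) * ∑' n : ℕ, q ^ (n * (n + 1)) := by
  have h2 := hasSum_jacobiTheta₂_term (τ / 2) hτ
  have h : ∀ n : ℕ, jacobiTheta₂_term (n : ℤ) (τ / 2) τ = q ^ (n * (n + 1)) ∧
      jacobiTheta₂_term (-(n + 1) : ℤ) (τ / 2) τ = q ^ (n * (n + 1)) := fun n => by
    constructor <;>
    · rw [jacobiTheta₂_term, ← hq, ← Complex.exp_nat_mul]
      push_cast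
      ring_nf
  have hsum : Summable fun n : ℕ => q ^ (n * (n + 1)) :=
    (h2.summable.comp_injective Nat.cast_injective).congr fun n => (h n).1
  have hz := HasSum.of_nat_of_neg_add_one (f := fun n : ℤ => jacobiTheta₂_term n (τ / 2) τ)
    (hsum.hasSum.congr_fun fun n => (h n).1) (hsum.hasSum.congr_fun fun n => (h n).2)
  have he : jacobiTheta₂ (τ / 2) τ = 2 * ∑' n : ℕ, q ^ (n * (n + 1)) := by
    rw [h2.unique hz]
    ring
  rw [thetaB, show 2 * (τ / 2) = τ by ring, he, show π * I * (τ / 2) / 2 = π * I * τ / 4 by ring]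
  ring

/-- A point above a nome. -/
theorem exists_point {c : ℝ} (hc : 0 < c) {q : ℂ} (h0 : q ≠ 0) (h1 : ‖q‖ < 1) :
    ∃ τ : UpperHalfPlane, Function.Periodic.qParam c (τ : ℂ) = q := by
  refine ⟨⟨Function.Periodic.invQParam c q, ?_⟩, Function.Periodic.qParam_right_inv hc.ne' h0⟩
  rw [Function.Periodic.im_invQParam, neg_div, neg_mul, Left.neg_pos_iff]
  exact mul_neg_of_pos_of_neg (by positivity) (Real.log_neg (norm_pos_iff.2 h0) h1)

theorem exp_of_qParam_two {τ q : ℂ} (h : Function.Periodic.qParam 2 τ = q) :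
    Complex.exp (π * I * τ) = q := by
  rw [← h, Function.Periodic.qParam]
  congr 1
  push_cast
  ring

/-- **Two numbers over which the fourth powers of the theta constants are algebraic.** -/
theorem algebraicIndependent_complex_theta {q : ℂ} (hq : IsAlgebraic ℚ q) (h0 : q ≠ 0)
    (h1 : ‖q‖ < 1) {x y : ℂ} (h : ∀ K : IntermediateField ℚ ℂ, IsAlgebraic K x → IsAlgebraic K y →
      IsAlgebraic K ((2 * ∑' n : ℕ, q ^ n ^ 2 - 1) ^ 4) ∧
        IsAlgebraic K ((2 * ∑' n : ℕ, (-q) ^ n ^ 2 - 1) ^ 4)) :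
    AlgebraicIndependent ℚ ![x, y] := by
  obtain ⟨τ, hqτ⟩ := exists_point two_pos h0 h1
  have hτ : 0 < (τ : ℂ).im := τ.im_pos
  have hexp := exp_of_qParam_two hqτ
  have hexp' : Complex.exp (π * I * ((τ : ℂ) + 1)) = -q := by
    rw [mul_add, mul_one, Complex.exp_add, hexp, Complex.exp_pi_mul_I, mul_neg_one]
  have hq2 : Function.Periodic.qParam 1 (τ : ℂ) = q ^ 2 := by
    rw [← hexp, Function.Periodic.qParam, ← Complex.exp_nat_mul]
    push_cast
    ring_nf
  refine algebraicIndependent_of_all_algebraic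
    (fun ε hε hε1 => FA.Nesterenko.small_values_at τ hε hε1) fun K hx hy i hi => ?_
  obtain ⟨h3, h4⟩ := h K hx hy
  obtain ⟨-, p4, p3⟩ := fourth_powers hτ
  rw [← jacobiTheta_nome hτ hexp] at h3
  rw [← jacobiTheta_nome (by simpa using hτ) hexp'] at h4
  have hC : IsAlgebraic K (thetaFourthFour τ) := p4 ▸ h4
  have hA : IsAlgebraic K (thetaFourthTwo τ) := by
    rw [show thetaFourthTwo τ = jacobiTheta τ ^ 4 - thetaFourthFour τ by rw [p3]; ring]
    exact h3.sub hC
  obtain ⟨e6, e4, -⟩ := FA.Nesterenko.fn_qParam τ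
  have hn : ∀ n : ℕ, IsAlgebraic K (n : ℂ) := fun n => isAlgebraic_natCast n
  fin_cases i
  · simp only [Fin.zero_eta, e6, FA.Viazovska.eSix_eq, FA.Viazovska.cubePoly, div_eq_mul_inv]
    exact ((((hA.add ((hn 2).mul hC)).mul (((hn 2).mul hA).add hC)).mul (hC.sub hA))).mul
      (hn 2).inv
  · simp only [Fin.mk_one, e4, FA.Viazovska.eFour_eq, FA.Viazovska.quadPoly]
    exact ((hA.pow 2).add (hA.mul hC)).add (hC.pow 2)
  · exact absurd rfl hi
  · simp only [Fin.reduceFinMk, FA.Nesterenko.fn_three, hq2]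
    exact IsAlgebraic.tower_top _ (hq.pow 2)

/-- **Two theta constants at a complex algebraic nome.** -/
theorem complex_theta_pairs {q : ℂ} (hq : IsAlgebraic ℚ q) (h0 : q ≠ 0) (h1 : ‖q‖ < 1) :
    AlgebraicIndependent ℚ ![∑' n : ℕ, q ^ n ^ 2, ∑' n : ℕ, (-q) ^ n ^ 2] ∧
    AlgebraicIndependent ℚ ![∑' n : ℕ, q ^ n ^ 2, ∑' n : ℕ, q ^ (n * (n + 1))] ∧
    AlgebraicIndependent ℚ ![∑' n : ℕ, (-q) ^ n ^ 2, ∑' n : ℕ, q ^ (n * (n + 1))] := by
  set S₃ := ∑' n : ℕ, q ^ n ^ 2
  set S₄ := ∑' n : ℕ, (-q) ^ n ^ 2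
  set S₂ := ∑' n : ℕ, q ^ (n * (n + 1))
  obtain ⟨τ₀, hqτ⟩ := exists_point two_pos h0 h1
  set τ : ℂ := (τ₀ : ℂ)
  have hτ : 0 < τ.im := τ₀.im_pos
  have hexp := exp_of_qParam_two hqτ
  have hexp' : Complex.exp (π * I * (τ + 1)) = -q := by
    rw [mul_add, mul_one, Complex.exp_add, hexp, Complex.exp_pi_mul_I, mul_neg_one]
  have hrel : (2 * S₃ - 1) ^ 4 = 16 * q * S₂ ^ 4 + (2 * S₄ - 1) ^ 4 := by
    obtain ⟨p2, p4, p3⟩ := fourth_powers hτ
    rw [← jacobiTheta_nome hτ hexp, ← jacobiTheta_nome (by simpa using hτ) hexp', p3, p4, ← p2,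
      thetaB_half_nome hτ hexp, mul_pow, mul_pow, ← Complex.exp_nat_mul]
    rw [show ((4 : ℕ) : ℂ) * (π * I * τ / 4) = π * I * τ by push_cast; ring, hexp]
    ring
  have hn : ∀ (K : IntermediateField ℚ ℂ) (n : ℕ), IsAlgebraic K (n : ℂ) :=
    fun K n => isAlgebraic_natCast n
  have lin : ∀ {K : IntermediateField ℚ ℂ} {s : ℂ}, IsAlgebraic K s →
      IsAlgebraic K ((2 * s - 1) ^ 4) :=
    fun {K s} hs => (((hn K 2).mul hs).sub isAlgebraic_one).pow 4
  have hT : ∀ {K : IntermediateField ℚ ℂ}, IsAlgebraic K S₂ →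
      IsAlgebraic K (16 * q * S₂ ^ 4) :=
    fun {K} hs => ((hn K 16).mul (IsAlgebraic.tower_top _ hq)).mul (hs.pow 4)
  refine ⟨?_, ?_, ?_⟩ <;> refine algebraicIndependent_complex_theta hq h0 h1 fun K hx hy => ?_
  · exact ⟨lin hx, lin hy⟩
  · exact ⟨lin hx, by rw [eq_sub_of_add_eq' hrel.symm]; exact (lin hx).sub (hT hy)⟩
  · exact ⟨by rw [hrel]; exact (hT hy).add (lin hx), lin hx⟩

/-- **`∏ (1 - q ^ n)` is transcendental at a complex algebraic `q`.** -/
theorem transcendental_euler_product {q : ℂ} (hq : IsAlgebraic ℚ q) (h0 : q ≠ 0) (h1 : ‖q‖ < 1) :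
    Transcendental ℚ (∏' n : ℕ, (1 - q ^ (n + 1))) := by
  obtain ⟨τ, hqτ⟩ := exists_point one_pos h0 h1
  set P := ∏' n : ℕ, (1 - q ^ (n + 1))
  have hΔ : ModularForm.discriminant τ = q * P ^ 24 := by
    rw [ModularForm.discriminant_eq_q_prod, hqτ,
      ← (ModularForm.multipliable_one_sub_pow h1).tprod_pow]
    simp only [ModularForm.eta_q, hqτ]
  obtain ⟨e6, e4, -⟩ := FA.Nesterenko.fn_qParam τ
  intro hP
  have h : AlgebraicIndependent ℚ ![ModularForm.E₄ τ, P] := by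
    refine algebraicIndependent_of_all_algebraic
      (fun ε hε hε1 => FA.Nesterenko.small_values_at τ hε hε1) fun K hx hy i hi => ?_
    have hn : ∀ n : ℕ, IsAlgebraic K (n : ℂ) := fun n => isAlgebraic_natCast n
    fin_cases i
    · simp only [Fin.zero_eta, e6]
      refine IsAlgebraic.of_pow two_pos ?_
      rw [show ModularForm.E₆ τ ^ 2 = ModularForm.E₄ τ ^ 3 - 1728 * (q * P ^ 24) by
        rw [← hΔ, ModularForm.discriminant_eq_E₄_cube_sub_E₆_sq]; ring]
      exact (hx.pow 3).sub ((hn 1728).mul ((IsAlgebraic.tower_top _ hq).mul (hy.pow 24)))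
    · simpa only [Fin.mk_one, e4] using hx
    · exact absurd rfl hi
    · simp only [Fin.reduceFinMk, FA.Nesterenko.fn_three, hqτ]
      exact IsAlgebraic.tower_top _ hq
  exact h.transcendental 1 hP

end FA.NesterenkoValues

end
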