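import Fermat.Agent.NesterenkoValues.ComplexNome
import Fermat.Agent.RamanujanPi.Main

/-!
# `E₂`, `E₄`, `E₆` at `τ` and `2 τ`

With `M = θ₃⁴ + θ₄⁴` and `N = θ₃⁴ θ₄⁴` at `τ` one has `2 E₂ (2τ) - E₂ (τ) = M / 2`, and `E₄, E₆`
at both points are polynomials in `M, N`.
-/

set_option autoImplicit false

noncomputable section

namespace FA.NesterenkoValues

open Complex (I)
open FA.Viazovska (thetaFourthTwo thetaFourthFour eisTwo)
open FA.ThetaAGM (thetaTwo thetaThree thetaFour)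
open FA.GaussLegendre (axisE axisPt E2_axisPt)
open scoped Real UpperHalfPlane

theorem thetaFourth_axis {t : ℝ} (ht : 0 < t) :
    thetaFourthTwo ((t : ℂ) * I) = ((thetaThree t ^ 4 - thetaFour t ^ 4 : ℝ) : ℂ) ∧
      thetaFourthFour ((t : ℂ) * I) = ((thetaFour t ^ 4 : ℝ) : ℂ) := by
  obtain ⟨-, p4, p3⟩ := fourth_powers (τ := (t : ℂ) * I) (by simpa using ht)
  rw [← FA.ThetaAGM.thetaThree_eq] at p3
  rw [← FA.ThetaAGM.thetaFour_eq] at p4
  push_cast
  exact ⟨by rw [p3, p4]; ring, p4.symm⟩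

theorem eisTwo_axis {t : ℝ} (ht : 0 < t) : eisTwo ((t : ℂ) * I) = (axisE (2 * t) : ℂ) := by
  rw [eisTwo, ← E2_axisPt (show 0 < 2 * t by linarith),
    ← UpperHalfPlane.ofComplex_apply (axisPt (2 * t) (by linarith))]
  congr 2
  rw [FA.GaussLegendre.coe_axisPt]
  push_cast
  ring

/-- `2 P (2 t) - P (t) = 2 θ₃⁴ - θ₄⁴`. -/
theorem axisE_double {t : ℝ} (ht : 0 < t) :
    2 * axisE (2 * t) - axisE t = 2 * thetaThree t ^ 4 - thetaFour t ^ 4 := by
  have hR := (FA.RamanujanPi.logDeriv_sq_theta ht).1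
  have h3 := FA.GaussLegendre.three_thetaThree_pow ht
  rw [FA.RamanujanPi.axisR, show thetaThree t ^ 4 * (1 - 2 * FA.ThetaAGM.lambdaAxis t) =
      2 * thetaFour t ^ 4 - thetaThree t ^ 4 by
    have := (FA.ThetaAGM.thetaThree_pos ht).ne'
    rw [FA.ThetaAGM.lambdaAxis]
    field_simp
    linarith [FA.ThetaAGM.quartic ht]] at hR
  linarith

/-- **The values at `2 τ`.** -/
theorem double_point {τ : ℂ} (hτ : 0 < τ.im) :
    thetaFourthFour (2 * τ) ^ 2 =
        thetaFourthFour τ * (thetaFourthTwo τ + thetaFourthFour τ) ∧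
      4 * thetaFourthTwo (2 * τ) + 2 * thetaFourthFour (2 * τ) =
        thetaFourthTwo τ + 2 * thetaFourthFour τ ∧
      2 * eisTwo (2 * τ) - eisTwo τ =
        2 * thetaFourthTwo (2 * τ) + thetaFourthFour (2 * τ) := by
  have h2 : ∀ z : ℂ, 0 < z.im → 0 < (2 * z).im := fun z hz => by simpa using hz
  have hd := fun (z : ℂ) (hz : 0 < z.im) => FA.Viazovska.differentiableAt_thetaFourth hz
  have dA : ∀ z : ℂ, 0 < z.im → DifferentiableAt ℂ (fun w => thetaFourthTwo (2 * w)) z :=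
    fun z hz => (hd _ (h2 z hz)).1.comp z (differentiableAt_id.const_mul (2 : ℂ))
  have dC : ∀ z : ℂ, 0 < z.im → DifferentiableAt ℂ (fun w => thetaFourthFour (2 * w)) z :=
    fun z hz => (hd _ (h2 z hz)).2.comp z (differentiableAt_id.const_mul (2 : ℂ))
  have dE : ∀ z : ℂ, 0 < z.im → DifferentiableAt ℂ eisTwo z :=
    fun z hz => (FA.Viazovska.hasDerivAt_eisTwo hz).differentiableAt
  have dE2 : ∀ z : ℂ, 0 < z.im → DifferentiableAt ℂ (fun w => eisTwo (2 * w)) z :=
    fun z hz => (dE _ (h2 z hz)).comp z (differentiableAt_id.const_mul (2 : ℂ))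
  refine ⟨?_, ?_, ?_⟩
  · refine eq_of_eq_on_axis (f := fun w => thetaFourthFour (2 * w) ^ 2)
      (g := fun w => thetaFourthFour w * (thetaFourthTwo w + thetaFourthFour w))
      (fun z hz => (dC z hz).pow 2) (fun z hz => (hd z hz).2.mul ((hd z hz).1.add (hd z hz).2))
      (fun t ht => ?_) hτ
    simp only [show (2 : ℂ) * ((t : ℂ) * I) = ((2 * t : ℝ) : ℂ) * I by push_cast; ring,
      (thetaFourth_axis ht).1, (thetaFourth_axis ht).2,
      (thetaFourth_axis (show 0 < 2 * t by linarith)).2]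
    norm_cast
    rw [show thetaFour (2 * t) ^ 4 = (thetaFour (2 * t) ^ 2) ^ 2 by ring,
      ← FA.ThetaAGM.mul_eq_sq ht]
    ring
  · refine eq_of_eq_on_axis
      (f := fun w => 4 * thetaFourthTwo (2 * w) + 2 * thetaFourthFour (2 * w))
      (g := fun w => thetaFourthTwo w + 2 * thetaFourthFour w)
      (fun z hz => ((dA z hz).const_mul 4).add ((dC z hz).const_mul 2))
      (fun z hz => (hd z hz).1.add ((hd z hz).2.const_mul 2)) (fun t ht => ?_) hτ
    simp only [show (2 : ℂ) * ((t : ℂ) * I) = ((2 * t : ℝ) : ℂ) * I by push_cast; ring,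
      (thetaFourth_axis ht).1, (thetaFourth_axis ht).2,
      (thetaFourth_axis (show 0 < 2 * t by linarith)).1,
      (thetaFourth_axis (show 0 < 2 * t by linarith)).2]
    norm_cast
    rw [show thetaThree (2 * t) ^ 4 = (thetaThree (2 * t) ^ 2) ^ 2 by ring,
      show thetaThree (2 * t) ^ 2 = (thetaThree t ^ 2 + thetaFour t ^ 2) / 2 by
        linarith [FA.ThetaAGM.sq_add_sq ht],
      show thetaFour (2 * t) ^ 4 = (thetaFour (2 * t) ^ 2) ^ 2 by ring,
      ← FA.ThetaAGM.mul_eq_sq ht]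
    ring
  · refine eq_of_eq_on_axis (f := fun w => 2 * eisTwo (2 * w) - eisTwo w)
      (g := fun w => 2 * thetaFourthTwo (2 * w) + thetaFourthFour (2 * w))
      (fun z hz => ((dE2 z hz).const_mul 2).sub (dE z hz))
      (fun z hz => ((dA z hz).const_mul 2).add (dC z hz)) (fun t ht => ?_) hτ
    simp only [show (2 : ℂ) * ((t : ℂ) * I) = ((2 * t : ℝ) : ℂ) * I by push_cast; ring,
      (thetaFourth_axis (show 0 < 2 * t by linarith)).1,
      (thetaFourth_axis (show 0 < 2 * t by linarith)).2, eisTwo_axis ht,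
      eisTwo_axis (show 0 < 2 * t by linarith)]
    norm_cast
    have := axisE_double (show 0 < 2 * t by linarith)
    linarith

/-- **`E₂, E₄, E₆` at two points with parameters `q` and `q²`.** -/
theorem exists_double_parameters {τ τ₂ : ℍ} (h : (τ₂ : ℂ) = 2 * τ) :
    ∃ M N : ℂ, 2 * EisensteinSeries.E2 τ₂ - EisensteinSeries.E2 τ = M / 2 ∧
      ModularForm.E₄ τ = M ^ 2 - 3 * N ∧
      ModularForm.E₄ τ₂ = (M ^ 2 + 12 * N) / 16 ∧
      ModularForm.E₆ τ = M * (9 * N - 2 * M ^ 2) / 2 ∧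
      ModularForm.E₆ τ₂ = M * (36 * N - M ^ 2) / 64 := by
  obtain ⟨h1, h2, h3⟩ := double_point τ.im_pos
  have e : ∀ z : ℍ, eisTwo (z : ℂ) = EisensteinSeries.E2 z := fun z => by
    rw [eisTwo, UpperHalfPlane.ofComplex_apply]
  rw [← h] at h1 h2 h3
  rw [e, e] at h3
  refine ⟨thetaFourthTwo τ + 2 * thetaFourthFour τ,
    thetaFourthFour τ * (thetaFourthTwo τ + thetaFourthFour τ), ?_, ?_, ?_, ?_, ?_⟩
  · linear_combination h3 + (1 / 2 : ℂ) * h2
  · rw [FA.Viazovska.eFour_eq, FA.Viazovska.quadPoly]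
    ring
  · rw [FA.Viazovska.eFour_eq, FA.Viazovska.quadPoly, ← h1, ← h2]
    ring
  · rw [FA.Viazovska.eSix_eq, FA.Viazovska.cubePoly]
    ring
  · rw [FA.Viazovska.eSix_eq, FA.Viazovska.cubePoly, ← h1, ← h2]
    ring

end FA.NesterenkoValues

end
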