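import Fermat.Agent.NesterenkoValues.AlgebraicNome

/-!
# Triples over which the values of `P, Q, R` and `q` are algebraic

Such a triple is algebraically independent, by Nesterenko's theorem.
-/

set_option autoImplicit false

noncomputable section

namespace FA.NesterenkoValues

open scoped UpperHalfPlane

/-- **Three numbers over which `q, P (q), Q (q), R (q)` are algebraic are algebraically
independent.** -/
theorem algebraicIndependent_triple_values {τ : ℍ} {x y z : ℂ}
    (h : ∀ K : IntermediateField ℚ ℂ, IsAlgebraic K x → IsAlgebraic K y → IsAlgebraic K z →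
      IsAlgebraic K (ModularForm.E₆ τ) ∧ IsAlgebraic K (ModularForm.E₄ τ) ∧
        IsAlgebraic K (EisensteinSeries.E2 τ) ∧
        IsAlgebraic K (Function.Periodic.qParam 1 (τ : ℂ))) :
    AlgebraicIndependent ℚ ![x, y, z] := by
  have h' := independent_of_algebraic_last (η := ![z, y, x, 0])
    (FA.Nesterenko.exists_three_of_pairs fun {u v} huv => ?_) (by simpa using isAlgebraic_zero)
  · simpa only [Matrix.cons_val] using h'
  obtain ⟨i, hi⟩ := FA.Nesterenko.exists_transcendental_over_pair
    (ω := fun i => FA.Nesterenko.fn i (Function.Periodic.qParam 1 τ))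
    (fun ε hε hε1 => FA.Nesterenko.small_values_at τ hε hε1) huv
  by_contra hc
  simp only [Transcendental, not_exists, not_not] at hc
  obtain ⟨h6, h4, h2, hq⟩ := h _ (by simpa using hc 2) (by simpa using hc 1) (by simpa using hc 0)
  obtain ⟨e6, e4, e2⟩ := FA.Nesterenko.fn_qParam τ
  refine hi ?_
  fin_cases i
  · simpa [e6] using h6
  · simpa [e4] using h4
  · simpa [e2] using h2
  · simpa [FA.Nesterenko.fn_three] using hq

end FA.NesterenkoValues

end
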