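import Fermat.Agent.NesterenkoValues.AlphaE2
import Fermat.Agent.NesterenkoValues.Triple
import Fermat.Agent.ClassNumberOne.Lattice
import Fermat.Agent.Chudnovsky.Main

/-!
# Periods and quasi-periods of elliptic curves over the algebraic numbers

With `τ = ω₁ / ω₂` in the upper half plane, `E₂ (τ) = 3 η₂ ω₂ / π²` and `E₄, E₆` are rational in
`g₂, g₃, ω₂ / π`: so `e ^ (2 π i τ), ω₂ / π, η₂ / π` are algebraically independent.
-/

set_option autoImplicit false

noncomputable section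

namespace FA.NesterenkoValues

open Complex (I)
open FA.Mazur.Wp (latPair g₂_latPair g₃_latPair tpi tpi_ne_zero)
open scoped Real PeriodPair UpperHalfPlane

theorem weierstrassP_congr {L L' : PeriodPair} (h : L.lattice = L'.lattice) (z : ℂ) :
    ℘[L] z = ℘[L'] z := by
  rw [PeriodPair.weierstrassP, PeriodPair.weierstrassP,
    ← ((Equiv.refl ℂ).subtypeEquiv fun x =>
      (h ▸ Iff.rfl : x ∈ L.lattice ↔ x ∈ L'.lattice)).tsum_eq]
  rfl

/-- **Nesterenko**: for algebraic invariants `e ^ (2 π i ω₁ / ω₂)`, `ω₂ / π` and `η₂ / π` are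
algebraically independent. -/
theorem algebraicIndependent_periods {L : PeriodPair} (h₂ : IsAlgebraic ℚ L.g₂)
    (h₃ : IsAlgebraic ℚ L.g₃) (him : 0 < (L.ω₁ / L.ω₂).im) {ζ : ℂ → ℂ}
    (hζ : ∀ z ∉ L.lattice, HasDerivAt ζ (-℘[L] z) z) {η : ℂ}
    (hη : ∀ z ∉ L.lattice, ζ (z + L.ω₂) = ζ z + η) :
    AlgebraicIndependent ℚ
      ![Complex.exp (2 * π * I * (L.ω₁ / L.ω₂)), L.ω₂ / π, η / π] := by
  have hω : L.ω₂ ≠ 0 := fun h => by simp [h] at him
  set τ : ℍ := ⟨L.ω₁ / L.ω₂, him⟩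
  set L' := FA.JInj.scalePair (latPair τ) L.ω₂ hω
  have hlat : L.lattice = L'.lattice := by
    refine SetLike.ext fun z => ?_
    simp only [L', PeriodPair.mem_lattice, FA.JInj.scalePair, latPair, mul_one]
    rw [show L.ω₂ * (τ : ℂ) = L.ω₁ from mul_div_cancel₀ _ hω]
  obtain ⟨e2, e3⟩ := FA.ClassNumberOne.g_congr hlat
  set f : ℂ → ℂ := fun z => ζ z - η / L.ω₂ * z with hf
  have hα : η / L.ω₂ = FA.Chudnovsky.alpha (cFrame τ hω) := by
    refine FA.Chudnovsky.alpha_eq_of_periodic (cFrame τ hω) (f := f) (fun z hz => ?_)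
      fun z hz => ?_
    · rw [← hlat] at hz
      refine ((hζ z hz).sub ((hasDerivAt_id z).const_mul (η / L.ω₂))).congr_deriv ?_
      rw [← weierstrassP_congr hlat]
      ring
    · rw [← hlat] at hz
      show ζ (z + L.ω₂) - η / L.ω₂ * (z + L.ω₂) = ζ z - η / L.ω₂ * z
      rw [hη z hz, mul_add, div_mul_cancel₀ _ hω]
      ring
  rw [alpha_cFrame τ hω] at hα
  have hπ : (π : ℂ) ≠ 0 := Complex.ofReal_ne_zero.2 Real.pi_ne_zero
  refine algebraicIndependent_triple_values (τ := τ) fun K hq hw he => ?_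
  have up : ∀ {x : ℂ}, IsAlgebraic ℚ x → IsAlgebraic K x := fun h => h.tower_top _
  have hn : ∀ n : ℕ, IsAlgebraic K (n : ℂ) := fun n => isAlgebraic_natCast n
  have hu : IsAlgebraic K (L.ω₂ / π * ((2 : ℕ) * I)⁻¹) :=
    hw.mul ((hn 2).mul (up FA.Chudnovsky.isAlgebraic_I)).inv
  refine ⟨?_, ?_, ?_, ?_⟩
  · have e : ModularForm.E₆ τ = ((-216 : ℤ) : ℂ) * L.g₃ * (L.ω₂ / π * ((2 : ℕ) * I)⁻¹) ^ 6 := by
      rw [e3, FA.JInj.g₃_scalePair, g₃_latPair, tpi]
      push_cast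
      field_simp
      try ring
    rw [e]
    exact ((up (isAlgebraic_intCast (-216))).mul (up h₃)).mul (hu.pow 6)
  · have e : ModularForm.E₄ τ = ((12 : ℕ) : ℂ) * L.g₂ * (L.ω₂ / π * ((2 : ℕ) * I)⁻¹) ^ 4 := by
      rw [e2, FA.JInj.g₂_scalePair, g₂_latPair, tpi]
      push_cast
      field_simp
      try ring
    rw [e]
    exact ((hn 12).mul (up h₂)).mul (hu.pow 4)
  · have e : EisensteinSeries.E2 τ = ((3 : ℕ) : ℂ) * (L.ω₂ / π) * (η / π) := by
      push_cast
      field_simp at hα ⊢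
      linear_combination -hα
    rw [e]
    exact ((hn 3).mul hw).mul he
  · rwa [show Function.Periodic.qParam 1 (τ : ℂ) = Complex.exp (2 * π * I * (L.ω₁ / L.ω₂)) by
      simp [Function.Periodic.qParam, τ]]

end FA.NesterenkoValues

end
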