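import Fermat.Agent.NesterenkoValues.AlgebraicNome
import Fermat.Agent.PrimeTwoSquares.Chi
import Mathlib.NumberTheory.TsumDivisorsAntidiagonal
import Mathlib.NumberTheory.Real.GoldenRatio

/-!
# The reciprocals of the Fibonacci numbers of odd index

By Jacobi's two squares `θ₂² ` is a Lambert series, which at `x = 1 / φ` is the sum of the
`1 / F (2 n + 1)`: so this sum is transcendental.
-/

set_option autoImplicit false

noncomputable section

namespace FA.NesterenkoValues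

open FA.ThetaAGM (thetaTwo thetaThree thetaFour)
open FA.PrimeTwoSquares (chi abs_chi_le twoSquares twoSquares_eq)
open FA.KroneckerLimit (squarePairs squarePairs_finite)
open scoped Real goldenRatio

variable {x : ℝ}

/-- `∑ χ₄ (d) x ^ d = x / (1 + x ²)`. -/
theorem hasSum_chi_pow (h0 : 0 ≤ x) (h1 : x < 1) :
    HasSum (fun d : ℕ => chi d * x ^ d) (x / (1 + x ^ 2)) := by
  have hg : HasSum (fun k : ℕ => (-x ^ 2) ^ k * x) (x / (1 + x ^ 2)) := by
    have h := (hasSum_geometric_of_abs_lt_one (r := -x ^ 2) (by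
      rw [abs_neg, abs_of_nonneg (by positivity)]
      exact pow_lt_one₀ h0 h1 two_ne_zero)).mul_right x
    rwa [sub_neg_eq_add, ← div_eq_inv_mul] at h
  refine (Function.Injective.hasSum_iff (g := fun k : ℕ => 2 * k + 1)
    (fun a b hab => by simpa using hab) fun d hd => ?_).1 (hg.congr_fun fun k => ?_)
  · rw [FA.PrimeTwoSquares.chi_of_even, zero_mul]
    by_contra h2
    exact hd ⟨d / 2, show 2 * (d / 2) + 1 = d by omega⟩
  · simp only [Function.comp_apply]
    rw [FA.PrimeTwoSquares.chi, ZMod.χ₄_eq_neg_one_pow (by omega),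
      show (2 * k + 1) / 2 = k by omega]
    push_cast
    rw [neg_pow (x ^ 2)]
    ring

/-- The coefficient of the square of `θ₃`. -/
def sqCoeff (n : ℕ) : ℝ := ∑ d ∈ n.divisors, chi d

theorem summable_pairTerm (h0 : 0 ≤ x) (h1 : x < 1) :
    Summable fun c : ℕ+ × ℕ+ => chi c.2 * x ^ ((c.1 : ℕ) * c.2) := by
  refine Summable.of_norm_bounded (summable_prod_mul_pow (𝕜 := ℝ) 0 (r := x)
    (by rwa [Real.norm_eq_abs, abs_of_nonneg h0])) fun c => ?_
  rw [pow_zero, one_mul, Real.norm_eq_abs, abs_mul, abs_of_nonneg (pow_nonneg h0 _)]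
  exact mul_le_of_le_one_left (pow_nonneg h0 _) (abs_chi_le _)

/-- The Lambert series. -/
theorem hasSum_lambert (h0 : 0 ≤ x) (h1 : x < 1) :
    HasSum (fun n : ℕ => sqCoeff n * x ^ n)
      (∑' c : ℕ+ × ℕ+, chi c.2 * x ^ ((c.1 : ℕ) * c.2)) ∧
    HasSum (fun m : ℕ => x ^ (m + 1) / (1 + (x ^ (m + 1)) ^ 2))
      (∑' c : ℕ+ × ℕ+, chi c.2 * x ^ ((c.1 : ℕ) * c.2)) := by
  have h := (summable_pairTerm h0 h1).hasSum
  constructor
  · have h2 := sigmaAntidiagonalEquivProd.hasSum_iff.2 h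
    have h3 := h2.sigma (g := fun n : ℕ+ => sqCoeff n * x ^ (n : ℕ)) fun n => ?_
    · rw [← hasSum_nat_add_iff' 1, Finset.sum_range_one]
      simp only [sqCoeff, Nat.divisors_zero, Finset.sum_empty, zero_mul, sub_zero]
      refine (Equiv.pnatEquivNat.symm.hasSum_iff.2 h3).congr_fun fun k => ?_
      simp [sqCoeff, Nat.succPNat]
    · have hval : sqCoeff n * x ^ (n : ℕ) =
          ∑ p ∈ (Nat.divisorsAntidiagonal (n : ℕ)).attach, chi p.1.2 * x ^ (p.1.1 * p.1.2) := by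
        rw [Finset.sum_attach (Nat.divisorsAntidiagonal (n : ℕ))
          (fun p : ℕ × ℕ => chi p.2 * x ^ (p.1 * p.2)), sqCoeff,
          ← Nat.sum_divisorsAntidiagonal' (fun _ d => chi d), Finset.sum_mul]
        exact Finset.sum_congr rfl fun p hp => by rw [(Nat.mem_divisorsAntidiagonal.1 hp).1]
      rw [hval, ← Finset.univ_eq_attach]
      exact (hasSum_fintype _).congr_fun fun p => rfl
  · have h4 := h.prod_fiberwise (g := fun m : ℕ+ => x ^ (m : ℕ) / (1 + (x ^ (m : ℕ)) ^ 2))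
      fun m => ?_
    · exact (Equiv.pnatEquivNat.symm.hasSum_iff.2 h4).congr_fun fun k => by simp [Nat.succPNat]
    · have hm := hasSum_chi_pow (pow_nonneg h0 (m : ℕ)) (pow_lt_one₀ h0 h1 m.ne_zero)
      refine ((Function.Injective.hasSum_iff PNat.coe_injective (f := fun d : ℕ =>
        chi d * (x ^ (m : ℕ)) ^ d) fun d hd => ?_).2 hm).congr_fun fun d => ?_
      · rcases Nat.eq_zero_or_pos d with rfl | hd0
        · simp [FA.PrimeTwoSquares.chi_of_even (dvd_zero 2)]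
        · exact absurd ⟨⟨d, hd0⟩, rfl⟩ hd
      · simp [pow_mul]

/-- **`θ₃ ² = 1 + 4 ∑ x ^ m / (1 + x ^ (2 m))`.** -/
theorem hasSum_thetaThree_sq {t : ℝ} (ht : 0 < t) :
    HasSum (fun m : ℕ => Real.exp (-π * t) ^ (m + 1) / (1 + (Real.exp (-π * t) ^ (m + 1)) ^ 2))
      ((thetaThree t ^ 2 - 1) / 4) := by
  set x := Real.exp (-π * t)
  have hx1 : x < 1 := Real.exp_lt_one_iff.2 (by nlinarith [Real.pi_pos])
  obtain ⟨hL, hM⟩ := hasSum_lambert (Real.exp_pos (-π * t)).le hx1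
  set S := ∑' c : ℕ+ × ℕ+, chi c.2 * x ^ ((c.1 : ℕ) * c.2)
  have hpairs := (FA.ThetaAGM.summable_pairs ht).hasSum
  rw [← FA.ThetaAGM.sq_thetaThree ht] at hpairs
  set key : ℤ × ℤ → ℕ := fun p => (p.1 ^ 2 + p.2 ^ 2).natAbs
  have hkey : ∀ p n, key p = n ↔ p ∈ squarePairs n := fun p n => by
    show (p.1 ^ 2 + p.2 ^ 2).natAbs = n ↔ p.1 ^ 2 + p.2 ^ 2 = (n : ℤ)
    have : 0 ≤ p.1 ^ 2 + p.2 ^ 2 := by positivity
    omega
  have hfib := ((Equiv.sigmaFiberEquiv key).hasSum_iff.2 hpairs).sigma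
    (g := fun n : ℕ => ((squarePairs n).ncard : ℝ) * x ^ n) fun n => ?_
  · have h1 :=
      (hasSum_nat_add_iff' (f := fun n : ℕ => ((squarePairs n).ncard : ℝ) * x ^ n) 1).2 hfib
    have hzero : squarePairs 0 = {(0, 0)} := by
      ext p
      show p.1 ^ 2 + p.2 ^ 2 = ((0 : ℕ) : ℤ) ↔ p = (0, 0)
      rw [Nat.cast_zero, add_eq_zero_iff_of_nonneg (sq_nonneg _) (sq_nonneg _),
        sq_eq_zero_iff, sq_eq_zero_iff, Prod.ext_iff]
    rw [Finset.sum_range_one, hzero, Set.ncard_singleton, Nat.cast_one, pow_zero, one_mul] at h1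
    have h2 : HasSum (fun n : ℕ => sqCoeff (n + 1) * x ^ (n + 1)) ((thetaThree t ^ 2 - 1) / 4) := by
      refine (h1.div_const 4).congr_fun fun n => ?_
      rw [show ((squarePairs (n + 1)).ncard : ℝ) = (twoSquares (n + 1) : ℝ) from rfl,
        twoSquares_eq n.succ_pos, sqCoeff]
      ring
    have h3 : HasSum (fun n : ℕ => sqCoeff (n + 1) * x ^ (n + 1)) S := by
      have := (hasSum_nat_add_iff' (f := fun n : ℕ => sqCoeff n * x ^ n) 1).2 hL
      simpa [sqCoeff] using this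
    rwa [h2.unique h3]
  · let hfin : {p // key p = n} ≃ (squarePairs_finite n).toFinset :=
      Equiv.subtypeEquivRight fun p => by rw [Set.Finite.mem_toFinset, hkey]
    rw [← hfin.symm.hasSum_iff]
    refine HasSum.congr_fun ?_ fun p => show _ = x ^ n by
      have hp : p.1.1 ^ 2 + p.1.2 ^ 2 = (n : ℤ) := (squarePairs_finite n).mem_toFinset.1 p.2
      show Real.exp (-π * t * ((p.1.1 : ℝ) ^ 2 + (p.1.2 : ℝ) ^ 2)) = x ^ n
      rw [show (p.1.1 : ℝ) ^ 2 + (p.1.2 : ℝ) ^ 2 = (n : ℝ) by exact_mod_cast hp, ← Real.exp_nat_mul]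
      ring_nf
    rw [Set.ncard_eq_toFinset_card _ (squarePairs_finite n)]
    convert hasSum_fintype (fun _ : (squarePairs_finite n).toFinset => x ^ n) using 1
    simp

/-- **`θ₂ (2 i t) ² = 4 ∑ x ^ k / (1 + x ^ (2 k))` over odd `k`.** -/
theorem hasSum_thetaTwo_sq {t : ℝ} (ht : 0 < t) :
    HasSum (fun m : ℕ => Real.exp (-π * t) ^ (2 * m + 1) /
      (1 + (Real.exp (-π * t) ^ (2 * m + 1)) ^ 2)) (thetaTwo (2 * t) ^ 2 / 4) := by
  set f : ℕ → ℝ := fun k => Real.exp (-π * t) ^ (k + 1) / (1 + (Real.exp (-π * t) ^ (k + 1)) ^ 2)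
  have hall : HasSum f ((thetaThree t ^ 2 - 1) / 4) := hasSum_thetaThree_sq ht
  have hodd : HasSum (fun m : ℕ => f (2 * m + 1)) ((thetaThree (2 * t) ^ 2 - 1) / 4) := by
    refine (hasSum_thetaThree_sq (show 0 < 2 * t by linarith)).congr_fun fun m => ?_
    simp only [f]
    rw [show Real.exp (-π * (2 * t)) = Real.exp (-π * t) ^ 2 by
      rw [← Real.exp_nat_mul]; push_cast; ring_nf, ← pow_mul]
    ring_nf
  have heven : Summable fun m : ℕ => f (2 * m) :=
    hall.summable.comp_injective fun a b h => by simpa using h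
  have hsplit := heven.hasSum.even_add_odd hodd
  have hv := hsplit.unique hall
  have hs : thetaTwo (2 * t) ^ 2 = thetaThree t ^ 2 - thetaThree (2 * t) ^ 2 := by
    linarith [FA.ThetaAGM.sq_add_sq ht, FA.ThetaAGM.sq_sub_sq ht]
  rw [hs, show (thetaThree t ^ 2 - thetaThree (2 * t) ^ 2) / 4 = ∑' m : ℕ, f (2 * m) by linarith]
  exact heven.hasSum

/-- The logarithm of `φ²` over `π`. -/
def goldenT : ℝ := 2 * Real.log φ / π

theorem goldenT_pos : 0 < goldenT :=
  div_pos (mul_pos two_pos (Real.log_pos Real.one_lt_goldenRatio)) Real.pi_pos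

theorem exp_goldenT : Real.exp (-π * goldenT) = (φ ^ 2)⁻¹ := by
  rw [goldenT, show -π * (2 * Real.log φ / π) = -((2 : ℕ) * Real.log φ) by
    push_cast; field_simp, Real.exp_neg, Real.exp_nat_mul, Real.exp_log Real.goldenRatio_pos]

theorem isAlgebraic_goldenRatio : IsAlgebraic ℚ φ := by
  refine ⟨Polynomial.X ^ 2 - Polynomial.X - 1, fun h => ?_, ?_⟩
  · simpa [Polynomial.coeff_X, Polynomial.coeff_one] using
      congrArg (fun p : Polynomial ℚ => p.coeff 2) h
  · simp [Real.goldenRatio_sq]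

/-- The sum over the odd indices is `√5 θ₂² / 4` at the nome `φ⁻²`. -/
theorem sum_inv_fib_odd_eq :
    ∑' n : ℕ, (1 : ℝ) / Nat.fib (2 * n + 1) = √5 * (thetaTwo goldenT ^ 2 / 4) := by
  have hφ := Real.goldenRatio_pos
  have h5 : (0 : ℝ) < √5 := Real.sqrt_pos.2 (by norm_num)
  set t := Real.log φ / π with ht'
  have ht : 0 < t := div_pos (Real.log_pos Real.one_lt_goldenRatio) Real.pi_pos
  have hexp : Real.exp (-π * t) = φ⁻¹ := by
    rw [ht', show -π * (Real.log φ / π) = -Real.log φ by field_simp, Real.exp_neg,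
      Real.exp_log hφ]
  have hterm : ∀ n : ℕ, (1 : ℝ) / Nat.fib (2 * n + 1) =
      √5 * (Real.exp (-π * t) ^ (2 * n + 1) / (1 + (Real.exp (-π * t) ^ (2 * n + 1)) ^ 2)) := by
    intro n
    have hψ : ψ = -φ⁻¹ := by rw [Real.inv_goldenRatio, neg_neg]
    rw [hexp, Real.coe_fib_eq, hψ, Odd.neg_pow (odd_two_mul_add_one n), sub_neg_eq_add, inv_pow]
    have hp : (0 : ℝ) < φ ^ (2 * n + 1) := pow_pos hφ _
    field_simp
  rw [show goldenT = 2 * t by rw [goldenT, ht']; ring, ← (hasSum_thetaTwo_sq ht).tsum_eq,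
    ← tsum_mul_left]
  exact tsum_congr hterm

/-- **The sum of the reciprocals of the Fibonacci numbers of odd index is transcendental.** -/
theorem transcendental_sum_inv_fib_odd :
    Transcendental ℚ (∑' n : ℕ, (1 : ℝ) / Nat.fib (2 * n + 1)) := by
  have h5 : (0 : ℝ) < √5 := Real.sqrt_pos.2 (by norm_num)
  have hs := sum_inv_fib_odd_eq
  have halg : IsAlgebraic ℚ (Real.exp (-π * goldenT)) := by
    rw [exp_goldenT]
    exact (isAlgebraic_goldenRatio.pow 2).inv
  intro h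
  refine (transcendental_theta goldenT_pos halg).1 ?_
  refine IsAlgebraic.of_pow two_pos ?_
  have h5a : IsAlgebraic ℚ (√5 : ℝ) := by
    refine IsAlgebraic.of_pow two_pos ?_
    rw [Real.sq_sqrt (by norm_num)]
    simpa using isAlgebraic_natCast (R := ℚ) (A := ℝ) 5
  rw [show thetaTwo goldenT ^ 2 = ((4 : ℕ) : ℝ) * (∑' n : ℕ, (1 : ℝ) / Nat.fib (2 * n + 1)) *
    (√5)⁻¹ by rw [hs]; push_cast; field_simp]
  exact ((isAlgebraic_natCast 4).mul h).mul h5a.inv

end FA.NesterenkoValues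

end
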