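import Fermat.Agent.NesterenkoValues.FibonacciSquares
import Fermat.Agent.NesterenkoValues.DoublePoint
import Fermat.Agent.NesterenkoValues.Triple

/-!
# The sums of the reciprocals of the second, fourth and sixth powers of the Fibonacci numbers

With `u = -φ⁻²` they are polynomials in the Lambert series of `σ₁, σ₃, σ₅` at `u` and `u²`, and
the values of `P, Q, R` at `u` are algebraic over them (Elsner, Shimomura, Shiokawa).
-/

set_option autoImplicit false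

noncomputable section

namespace FA.NesterenkoValues

open scoped Real goldenRatio ArithmeticFunction.sigma UpperHalfPlane

/-- `∑ σ_k (n) v ^ n`. -/
def sigSeries (k : ℕ) (v : ℂ) : ℂ := ∑' n : ℕ, (σ k n : ℂ) * v ^ n

theorem hasSum_sigSeries {v : ℂ} (hv : ‖v‖ < 1) (k : ℕ) :
    HasSum (fun c : ℕ+ × ℕ+ => (c.2 : ℂ) ^ k * v ^ ((c.1 : ℕ) * c.2)) (sigSeries k v) := by
  have hs := summable_prod_mul_pow (𝕜 := ℂ) k hv
  have h := tsum_prod_pow_eq_tsum_sigma (𝕜 := ℂ) k hv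
  rw [← hs.tsum_prod] at h
  suffices e : sigSeries k v = ∑' c : ℕ+ × ℕ+, (c.2 : ℂ) ^ k * v ^ ((c.1 : ℕ) * c.2) from
    e ▸ hs.hasSum
  refine Eq.trans ?_ h.symm
  rw [tsum_pnat_eq_tsum_succ (f := fun n : ℕ => (σ k n : ℂ) * v ^ n), sigSeries]
  by_cases hsum : Summable fun n : ℕ => (σ k n : ℂ) * v ^ n
  · rw [hsum.tsum_eq_zero_add]
    simp
  · rw [tsum_eq_zero_of_not_summable hsum,
      tsum_eq_zero_of_not_summable fun hc => hsum ((summable_nat_add_iff 1).1 hc)]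

theorem choose_three_cast (m : ℕ) : (((m + 1).choose 3 : ℕ) : ℂ) = ((m : ℂ) ^ 3 - m) / 6 := by
  have h := congrArg (Nat.cast (R := ℂ)) (Nat.descFactorial_eq_factorial_mul_choose (m + 1) 3)
  rw [← descPochhammer_eval_eq_descFactorial] at h
  simp [descPochhammer_succ_right, Nat.factorial] at h
  linear_combination (-1 / 6 : ℂ) * h

theorem choose_five_cast (m : ℕ) :
    (((m + 2).choose 5 : ℕ) : ℂ) = ((m : ℂ) ^ 5 - 5 * (m : ℂ) ^ 3 + 4 * m) / 120 := by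
  have h := congrArg (Nat.cast (R := ℂ)) (Nat.descFactorial_eq_factorial_mul_choose (m + 2) 5)
  rw [← descPochhammer_eval_eq_descFactorial] at h
  simp [descPochhammer_succ_right, Nat.factorial] at h
  linear_combination (-1 / 120 : ℂ) * h

/-- The three inner series. -/
theorem hasSum_inner {y : ℂ} (hy : ‖y‖ < 1) :
    HasSum (fun m : ℕ => (m : ℂ) * y ^ m) (y / (1 - y) ^ 2) ∧
    HasSum (fun m : ℕ => ((m : ℂ) ^ 3 - m) / 6 * y ^ m) (y ^ 2 / (1 - y) ^ 4) ∧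
    HasSum (fun m : ℕ => ((m : ℂ) ^ 5 - 5 * (m : ℂ) ^ 3 + 4 * m) / 120 * y ^ m)
      (y ^ 3 / (1 - y) ^ 6) := by
  refine ⟨hasSum_coe_mul_geometric_of_norm_lt_one hy, ?_, ?_⟩
  · have h := (hasSum_choose_mul_geometric_of_norm_lt_one 3 hy).mul_left (y ^ 2)
    have h2 := (hasSum_nat_add_iff (f := fun m : ℕ => ((m : ℂ) ^ 3 - m) / 6 * y ^ m) 2).1
      (h.congr_fun fun n => by rw [← choose_three_cast, show n + 2 + 1 = n + 3 from rfl]; ring)
    simpa [Finset.sum_range_succ, div_eq_mul_inv] using h2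
  · have h := (hasSum_choose_mul_geometric_of_norm_lt_one 5 hy).mul_left (y ^ 3)
    have h2 := (hasSum_nat_add_iff
      (f := fun m : ℕ => ((m : ℂ) ^ 5 - 5 * (m : ℂ) ^ 3 + 4 * m) / 120 * y ^ m) 3).1
      (h.congr_fun fun n => by rw [← choose_five_cast, show n + 3 + 2 = n + 5 from rfl]; ring)
    simp only [Finset.sum_range_succ, Finset.sum_range_zero] at h2
    norm_num at h2
    simpa [div_eq_mul_inv] using h2

/-- The three Lambert series. -/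
theorem hasSum_lambert_powers {v : ℂ} (hv : ‖v‖ < 1) :
    HasSum (fun n : ℕ => v ^ (n + 1) / (1 - v ^ (n + 1)) ^ 2) (sigSeries 1 v) ∧
    HasSum (fun n : ℕ => (v ^ (n + 1)) ^ 2 / (1 - v ^ (n + 1)) ^ 4)
      ((sigSeries 3 v - sigSeries 1 v) / 6) ∧
    HasSum (fun n : ℕ => (v ^ (n + 1)) ^ 3 / (1 - v ^ (n + 1)) ^ 6)
      ((sigSeries 5 v - 5 * sigSeries 3 v + 4 * sigSeries 1 v) / 120) := by
  have step : ∀ {p : ℕ → ℂ} {F : ℂ → ℂ} {S : ℂ}, p 0 = 0 →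
      (∀ y : ℂ, ‖y‖ < 1 → HasSum (fun m : ℕ => p m * y ^ m) (F y)) →
      HasSum (fun c : ℕ+ × ℕ+ => p c.2 * v ^ ((c.1 : ℕ) * c.2)) S →
      HasSum (fun n : ℕ => F (v ^ (n + 1))) S := by
    intro p F S hp0 hF h
    have hg := h.prod_fiberwise (g := fun n : ℕ+ => F (v ^ (n : ℕ))) fun n => by
      have hn : ‖v ^ (n : ℕ)‖ < 1 := by
        rw [norm_pow]
        exact pow_lt_one₀ (norm_nonneg _) hv n.ne_zero
      refine ((Function.Injective.hasSum_iff PNat.coe_injective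
        (f := fun d : ℕ => p d * (v ^ (n : ℕ)) ^ d) fun d hd => ?_).2 (hF _ hn)).congr_fun
        fun d => by simp [pow_mul]
      rcases Nat.eq_zero_or_pos d with rfl | hd0
      · simp [hp0]
      · exact absurd ⟨⟨d, hd0⟩, rfl⟩ hd
    exact (Equiv.pnatEquivNat.symm.hasSum_iff.2 hg).congr_fun fun n => by simp [Nat.succPNat]
  have g := fun k => hasSum_sigSeries hv k
  refine ⟨step (p := fun m => (m : ℂ)) (F := fun y => y / (1 - y) ^ 2) (by simp)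
    (fun y hy => (hasSum_inner hy).1) ((g 1).congr_fun fun c => by simp), ?_, ?_⟩
  · exact step (p := fun m => ((m : ℂ) ^ 3 - m) / 6) (F := fun y => y ^ 2 / (1 - y) ^ 4) (by simp)
      (fun y hy => (hasSum_inner hy).2.1)
      ((((g 3).sub (g 1)).div_const 6).congr_fun fun c => by ring)
  · exact step (p := fun m => ((m : ℂ) ^ 5 - 5 * (m : ℂ) ^ 3 + 4 * m) / 120)
      (F := fun y => y ^ 3 / (1 - y) ^ 6) (by simp) (fun y hy => (hasSum_inner hy).2.2)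
      (((((g 5).sub ((g 3).mul_left 5)).add ((g 1).mul_left 4)).div_const 120).congr_fun
        fun c => by ring)

/-- The sums with alternating signs. -/
theorem hasSum_neg_pow_mul {g : ℕ → ℂ} {A B : ℂ} (hA : HasSum (fun n => g (n + 1)) A)
    (hB : HasSum (fun n => g (2 * (n + 1))) B) :
    HasSum (fun n => (-1) ^ (n + 1) * g (n + 1)) (2 * B - A) := by
  set E : ℕ → ℂ := fun n => if Even (n + 1) then g (n + 1) else 0 with hE
  have hEB : HasSum E B := by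
    have he : HasSum (fun m : ℕ => E (2 * m)) 0 := hasSum_zero.congr_fun fun m =>
      if_neg (by simp [parity_simps])
    have ho : HasSum (fun m : ℕ => E (2 * m + 1)) B := hB.congr_fun fun m => by
      rw [hE]
      simp only [show Even (2 * m + 1 + 1) by simp [parity_simps], if_true]
      ring_nf
    simpa using he.even_add_odd ho
  refine ((hEB.mul_left 2).sub hA).congr_fun fun n => ?_
  rcases Nat.even_or_odd (n + 1) with he | he
  · rw [hE, he.neg_one_pow]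
    simp [he]
    ring
  · rw [hE, he.neg_one_pow]
    simp [Nat.not_even_iff_odd.2 he]

/-- `-φ⁻²`. -/
def fibBase : ℂ := -((Real.exp (-π * goldenT) : ℝ) : ℂ)

theorem fibBase_facts : fibBase ≠ 0 ∧ ‖fibBase‖ < 1 ∧ IsAlgebraic ℚ fibBase := by
  refine ⟨neg_ne_zero.2 (Complex.ofReal_ne_zero.2 (Real.exp_pos _).ne'), ?_, ?_⟩
  · rw [fibBase, norm_neg, Complex.norm_real, Real.norm_of_nonneg (Real.exp_pos _).le]
    exact Real.exp_lt_one_iff.2 (by nlinarith [goldenT_pos, Real.pi_pos])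
  · rw [fibBase, exp_goldenT]
    exact (((isAlgebraic_goldenRatio.pow 2).inv).algHom
      (Complex.ofRealAm.restrictScalars ℚ)).neg

theorem fib_term_base (n : ℕ) : 1 / ((Nat.fib (n + 1) : ℕ) : ℂ) ^ 2 =
    5 * ((-1) ^ (n + 1) * (fibBase ^ (n + 1) / (1 - fibBase ^ (n + 1)) ^ 2)) := by
  have h0 := (fib_terms n).1
  rw [fibBase]
  generalize Real.exp (-π * goldenT) = x at h0 ⊢
  have h := congrArg Complex.ofReal h0
  push_cast at h
  rw [h, neg_pow (x : ℂ)]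
  have hsq : ((-1 : ℂ) ^ (n + 1)) * (-1) ^ (n + 1) = 1 := by rw [← mul_pow]; norm_num
  linear_combination (-5 * ((x : ℂ) ^ (n + 1) /
    (1 - (-1) ^ (n + 1) * (x : ℂ) ^ (n + 1)) ^ 2)) * hsq

/-- The sums in the Lambert series at `-φ⁻²` and its square. -/
theorem fib_power_sums :
    HasSum (fun n : ℕ => 1 / ((Nat.fib (n + 1) : ℕ) : ℂ) ^ 2)
      (5 * (2 * sigSeries 1 (fibBase ^ 2) - sigSeries 1 fibBase)) ∧
    HasSum (fun n : ℕ => 1 / ((Nat.fib (n + 1) : ℕ) : ℂ) ^ 4)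
      (25 * ((sigSeries 3 fibBase - sigSeries 1 fibBase) / 6)) ∧
    HasSum (fun n : ℕ => 1 / ((Nat.fib (n + 1) : ℕ) : ℂ) ^ 6)
      (125 * (2 * ((sigSeries 5 (fibBase ^ 2) - 5 * sigSeries 3 (fibBase ^ 2) +
          4 * sigSeries 1 (fibBase ^ 2)) / 120) -
        (sigSeries 5 fibBase - 5 * sigSeries 3 fibBase + 4 * sigSeries 1 fibBase) / 120)) := by
  obtain ⟨-, hu, -⟩ := fibBase_facts
  have hu2 : ‖fibBase ^ 2‖ < 1 := by
    rw [norm_pow]
    exact pow_lt_one₀ (norm_nonneg _) hu two_ne_zero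
  obtain ⟨a1, a2, a3⟩ := hasSum_lambert_powers hu
  obtain ⟨b1, -, b3⟩ := hasSum_lambert_powers hu2
  have e4 : ∀ n : ℕ, 1 / ((Nat.fib (n + 1) : ℕ) : ℂ) ^ 4 =
      (1 / ((Nat.fib (n + 1) : ℕ) : ℂ) ^ 2) ^ 2 := fun n => by rw [div_pow, one_pow, ← pow_mul]
  have e6 : ∀ n : ℕ, 1 / ((Nat.fib (n + 1) : ℕ) : ℂ) ^ 6 =
      (1 / ((Nat.fib (n + 1) : ℕ) : ℂ) ^ 2) ^ 3 := fun n => by rw [div_pow, one_pow, ← pow_mul]
  have hs2 : ∀ n : ℕ, ((-1 : ℂ) ^ n) ^ 2 = 1 := fun n => by rw [← pow_mul]; simp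
  refine ⟨?_, ?_, ?_⟩
  · refine ((hasSum_neg_pow_mul (g := fun k => fibBase ^ k / (1 - fibBase ^ k) ^ 2) a1
      (b1.congr_fun fun n => by rw [pow_mul])).mul_left 5).congr_fun fun n => fib_term_base n
  · refine (a2.mul_left 25).congr_fun fun n => ?_
    rw [e4, fib_term_base, mul_pow, mul_pow, hs2, div_pow]
    ring
  · refine ((hasSum_neg_pow_mul (g := fun k => (fibBase ^ k) ^ 3 / (1 - fibBase ^ k) ^ 6) a3
      (b3.congr_fun fun n => by rw [pow_mul])).mul_left 125).congr_fun fun n => ?_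
    rw [e6, fib_term_base, mul_pow, mul_pow, div_pow,
      show ((-1 : ℂ) ^ (n + 1)) ^ 3 = (-1) ^ (n + 1) by rw [pow_succ, hs2, one_mul], ← pow_mul]
    ring

/-- **The theorem of Elsner, Shimomura and Shiokawa.** -/
theorem algebraicIndependent_fib_powers :
    AlgebraicIndependent ℚ ![∑' n : ℕ, (1 : ℝ) / (Nat.fib (n + 1) : ℝ) ^ 2,
      ∑' n : ℕ, (1 : ℝ) / (Nat.fib (n + 1) : ℝ) ^ 4,
      ∑' n : ℕ, (1 : ℝ) / (Nat.fib (n + 1) : ℝ) ^ 6] := by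
  set Z : ℕ → ℝ := fun j => ∑' n : ℕ, (1 : ℝ) / (Nat.fib (n + 1) : ℝ) ^ j
  obtain ⟨h0, h1, halg⟩ := fibBase_facts
  obtain ⟨s2, s4, s6⟩ := fib_power_sums
  have hZ : ∀ {j : ℕ} {S : ℂ},
      HasSum (fun n : ℕ => 1 / ((Nat.fib (n + 1) : ℕ) : ℂ) ^ j) S → (Z j : ℂ) = S :=
    fun {j S} h => by
      rw [← h.tsum_eq]
      simp only [Z, Complex.ofReal_tsum]
      exact tsum_congr fun n => by push_cast; rfl
  obtain ⟨τ, hqτ⟩ := exists_point one_pos h0 h1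
  obtain ⟨τ₂, hτ₂⟩ : ∃ τ₂ : ℍ, (τ₂ : ℂ) = 2 * τ := ⟨⟨2 * (τ : ℂ), by simpa using τ.im_pos⟩, rfl⟩
  have hqτ₂ : Function.Periodic.qParam 1 (τ₂ : ℂ) = fibBase ^ 2 := by
    rw [← hqτ, hτ₂, Function.Periodic.qParam, Function.Periodic.qParam, ← Complex.exp_nat_mul]
    push_cast
    ring_nf
  obtain ⟨M, N, eP, eQ, eQ2, eR, eR2⟩ := exists_double_parameters hτ₂
  obtain ⟨r6, r4, r2⟩ := FA.Nesterenko.fn_qParam τ
  obtain ⟨p6, p4, p2⟩ := FA.Nesterenko.fn_qParam τ₂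
  rw [hqτ] at r6 r4 r2
  rw [hqτ₂] at p6 p4 p2
  have hu2 : ‖fibBase ^ 2‖ < 1 := by
    rw [norm_pow]
    exact pow_lt_one₀ (norm_nonneg _) h1 two_ne_zero
  have ser : ∀ {v : ℂ}, ‖v‖ < 1 →
      sigSeries 1 v = (1 - FA.Nesterenko.fn 2 v) / 24 ∧
      sigSeries 3 v = (FA.Nesterenko.fn 1 v - 1) / 240 ∧
      sigSeries 5 v = (1 - FA.Nesterenko.fn 0 v) / 504 := fun {v} hv => by
    obtain ⟨a, b, c⟩ := FA.Nesterenko.fn_eq_series hv
    simp only [sigSeries, a, b, c]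
    exact ⟨by ring, by ring, by ring⟩
  obtain ⟨g1, g3, g5⟩ := ser h1
  obtain ⟨k1, k3, k5⟩ := ser hu2
  have z2 : (Z 2 : ℂ) = 5 / 24 * (1 - M / 2) := by
    rw [hZ s2, g1, k1, r2, p2]
    linear_combination (-5 / 24 : ℂ) * eP
  have z4 : (Z 4 : ℂ) = 25 / 6 * ((M ^ 2 - 3 * N - 1) / 240 -
      (1 - EisensteinSeries.E2 τ) / 24) := by
    rw [hZ s4, g1, g3, r2, r4, eQ]
    ring
  have z6 : (Z 6 : ℂ) = 25 / 24 * ((1 - M * (31 * M ^ 2 / 32 - 27 * N / 8)) / 504 -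
      (-7 * M ^ 2 / 8 + 9 * N / 2 - 1) / 48 + (1 - M / 2) / 6) := by
    rw [hZ s6, g1, g3, g5, k1, k3, k5, r2, r4, r6, p2, p4, p6, eQ, eQ2, eR, eR2]
    linear_combination (-25 / 144 : ℂ) * eP
  have hM14 : M - 14 ≠ 0 := fun h => by
    rw [sub_eq_zero] at h
    have hneg : Z 2 = -(5 / 4) := by
      refine Complex.ofReal_injective ?_
      rw [z2, h]
      push_cast
      norm_num
    have : 0 ≤ Z 2 := tsum_nonneg fun n => by positivity
    linarith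
  have main : AlgebraicIndependent ℚ ![(Z 2 : ℂ), (Z 4 : ℂ), (Z 6 : ℂ)] := by
    refine algebraicIndependent_triple_values (τ := τ) fun K k2 k4 k6 => ?_
    have hn : ∀ n : ℕ, IsAlgebraic K (n : ℂ) := fun n => isAlgebraic_natCast n
    have hM : IsAlgebraic K M := by
      rw [show M = ((2 : ℕ) : ℂ) - ((48 : ℕ) : ℂ) * ((5 : ℕ) : ℂ)⁻¹ * (Z 2 : ℂ) by
        rw [z2]; push_cast; ring]
      exact (hn 2).sub (((hn 48).mul (hn 5).inv).mul k2)
    set rest := (1 - M * (31 * M ^ 2 / 32)) * (504 : ℂ)⁻¹ -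
      (-7 * M ^ 2 / 8 - 1) * (48 : ℂ)⁻¹ + (1 - M * (2 : ℂ)⁻¹) * (6 : ℂ)⁻¹ with hrest
    have hr : IsAlgebraic K rest := by
      rw [show rest = (((1 : ℕ) : ℂ) - M * (((31 : ℕ) : ℂ) * M ^ 2 * ((32 : ℕ) : ℂ)⁻¹)) *
          ((504 : ℕ) : ℂ)⁻¹ + (((7 : ℕ) : ℂ) * M ^ 2 * ((8 : ℕ) : ℂ)⁻¹ + ((1 : ℕ) : ℂ)) *
          ((48 : ℕ) : ℂ)⁻¹ + (((1 : ℕ) : ℂ) - M * ((2 : ℕ) : ℂ)⁻¹) * ((6 : ℕ) : ℂ)⁻¹ by
        rw [hrest]; push_cast; ring]
      exact ((((hn 1).sub (hM.mul (((hn 31).mul (hM.pow 2)).mul (hn 32).inv))).mul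
        (hn 504).inv).add ((((hn 7).mul (hM.pow 2)).mul (hn 8).inv).add (hn 1) |>.mul
        (hn 48).inv)).add (((hn 1).sub (hM.mul (hn 2).inv)).mul (hn 6).inv)
    have hN : IsAlgebraic K N := by
      rw [show N = (((24 : ℕ) : ℂ) * ((25 : ℕ) : ℂ)⁻¹ * (Z 6 : ℂ) - rest) * ((448 : ℕ) : ℂ) *
          (((3 : ℕ) : ℂ) * (M - ((14 : ℕ) : ℂ)))⁻¹ by
        rw [z6, hrest]; push_cast; field_simp; ring]
      exact (((((hn 24).mul (hn 25).inv).mul k6).sub hr).mul (hn 448)).mul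
        ((hn 3).mul (hM.sub (hn 14))).inv
    have hQ : IsAlgebraic K (M ^ 2 - 3 * N) := (hM.pow 2).sub ((hn 3).mul hN)
    refine ⟨?_, eQ ▸ hQ, ?_, ?_⟩
    · rw [eR, div_eq_mul_inv]
      exact (hM.mul (((hn 9).mul hN).sub ((hn 2).mul (hM.pow 2)))).mul (hn 2).inv
    · rw [show EisensteinSeries.E2 τ = ((24 : ℕ) : ℂ) * (((6 : ℕ) : ℂ) * ((25 : ℕ) : ℂ)⁻¹ *
          (Z 4 : ℂ)) - (M ^ 2 - 3 * N - ((1 : ℕ) : ℂ)) * ((10 : ℕ) : ℂ)⁻¹ + ((1 : ℕ) : ℂ) by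
        rw [z4]; push_cast; ring]
      exact (((hn 24).mul (((hn 6).mul (hn 25).inv).mul k4)).sub
        ((hQ.sub (hn 1)).mul (hn 10).inv)).add (hn 1)
    · rw [hqτ]
      exact halg.tower_top _
  exact FA.Nesterenko.of_real_triple main

end FA.NesterenkoValues

end
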