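import Fermat.Agent.NesterenkoValues.Fibonacci
import Fermat.Agent.RamanujanPi.Main

/-!
# The reciprocals of the squares of the Fibonacci and Lucas numbers

With `x = φ⁻²` they are combinations of the Lambert series `∑ y / (1 - y)²`, `y = x^(jn)` for
`j = 1, 2, 4`, so of `θ₃ (x)⁴` and `θ₄ (x)⁴`: any two of their sums and the sum of `1 / F (2n + 1)`
are algebraically independent.
-/

set_option autoImplicit false

noncomputable section

namespace FA.NesterenkoValues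

open FA.ThetaAGM (thetaTwo thetaThree thetaFour)
open FA.GaussLegendre (axisE)
open scoped Real goldenRatio ArithmeticFunction.sigma

/-- `∑ y / (1 - y)²` over `y = x, x², …` is the series of `σ`. -/
theorem hasSum_square_lambert {t : ℝ} (ht : 0 < t) :
    HasSum (fun n : ℕ => Real.exp (-π * t) ^ (n + 1) / (1 - Real.exp (-π * t) ^ (n + 1)) ^ 2)
      ((1 - axisE t) / 24) := by
  set x := Real.exp (-π * t) with hx
  have hx0 : 0 < x := Real.exp_pos _
  have hx1 : ‖x‖ < 1 := by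
    rw [Real.norm_of_nonneg hx0.le]
    exact Real.exp_lt_one_iff.2 (by nlinarith [Real.pi_pos])
  have hs : Summable fun c : ℕ+ × ℕ+ => (c.2 : ℝ) * x ^ ((c.1 : ℕ) * c.2) := by
    simpa using summable_prod_mul_pow 1 hx1
  have hval : ∑' c : ℕ+ × ℕ+, (c.2 : ℝ) * x ^ ((c.1 : ℕ) * c.2) = (1 - axisE t) / 24 := by
    have h := tsum_prod_pow_eq_tsum_sigma 1 hx1
    simp only [pow_one] at h
    rw [hs.tsum_prod, h, axisE, ← hx]
    ring
  have hg := hs.hasSum.prod_fiberwise (g := fun n : ℕ+ => x ^ (n : ℕ) / (1 - x ^ (n : ℕ)) ^ 2)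
    fun n => by
      have hn : ‖x ^ (n : ℕ)‖ < 1 := by
        rw [norm_pow]
        exact pow_lt_one₀ (norm_nonneg _) hx1 n.ne_zero
      refine ((Function.Injective.hasSum_iff PNat.coe_injective
        (f := fun d : ℕ => (d : ℝ) * (x ^ (n : ℕ)) ^ d) fun d hd => ?_).2
        (hasSum_coe_mul_geometric_of_norm_lt_one hn)).congr_fun fun d => by simp [pow_mul]
      rcases Nat.eq_zero_or_pos d with rfl | hd0
      · simp
      · exact absurd ⟨⟨d, hd0⟩, rfl⟩ hd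
  rw [hval] at hg
  exact (Equiv.pnatEquivNat.symm.hasSum_iff.2 hg).congr_fun fun n => by simp [Nat.succPNat]

/-- The two series with alternating signs, by `θ₃⁴` and `θ₄⁴`. -/
theorem hasSum_alternating_squares {t : ℝ} (ht : 0 < t) :
    HasSum (fun n : ℕ => Real.exp (-π * t) ^ (n + 1) /
        (1 - (-1) ^ (n + 1) * Real.exp (-π * t) ^ (n + 1)) ^ 2)
      ((1 + thetaThree t ^ 4 - 2 * thetaFour t ^ 4) / 24) ∧
    HasSum (fun n : ℕ => Real.exp (-π * t) ^ (n + 1) /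
        (1 + (-1) ^ (n + 1) * Real.exp (-π * t) ^ (n + 1)) ^ 2)
      ((thetaThree t ^ 4 - 1) / 8) := by
  set x := Real.exp (-π * t) with hx
  have hx0 : 0 < x := Real.exp_pos _
  have hx1 : x < 1 := Real.exp_lt_one_iff.2 (by nlinarith [Real.pi_pos])
  have hk : ∀ k : ℕ, Real.exp (-π * (k * t)) = x ^ k := fun k => by
    rw [hx, ← Real.exp_nat_mul]
    ring_nf
  set g : ℕ → ℝ := fun k => x ^ k / (1 - x ^ k) ^ 2 with hg
  have h1 : HasSum (fun n : ℕ => g (n + 1)) ((1 - axisE t) / 24) := hasSum_square_lambert ht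
  have h2 : HasSum (fun n : ℕ => g (2 * (n + 1))) ((1 - axisE (2 * t)) / 24) := by
    refine (hasSum_square_lambert (show 0 < 2 * t by linarith)).congr_fun fun n => ?_
    rw [show Real.exp (-π * (2 * t)) = x ^ 2 by simpa using hk 2, ← pow_mul]
  have h4 : HasSum (fun n : ℕ => g (4 * (n + 1))) ((1 - axisE (4 * t)) / 24) := by
    refine (hasSum_square_lambert (show 0 < 4 * t by linarith)).congr_fun fun n => ?_
    rw [show Real.exp (-π * (4 * t)) = x ^ 4 by simpa using hk 4, ← pow_mul]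
  set E : ℕ → ℝ := fun n => if Even (n + 1) then g (2 * (n + 1)) else 0 with hE
  have hE4 : HasSum E ((1 - axisE (4 * t)) / 24) := by
    have he : HasSum (fun m : ℕ => E (2 * m)) 0 := hasSum_zero.congr_fun fun m =>
      if_neg (by simp [parity_simps])
    have ho : HasSum (fun m : ℕ => E (2 * m + 1)) ((1 - axisE (4 * t)) / 24) :=
      h4.congr_fun fun m => by
        rw [hE]
        simp only [show Even (2 * m + 1 + 1) by simp [parity_simps], if_true]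
        congr 1
        ring
    simpa using he.even_add_odd ho
  have hne : ∀ k : ℕ, 0 < k → 1 - x ^ k ≠ 0 ∧ 1 + x ^ k ≠ 0 := fun k hk => by
    have := pow_lt_one₀ hx0.le hx1 hk.ne'
    have := pow_pos hx0 k
    constructor <;> linarith
  have key : ∀ k : ℕ, 0 < k → x ^ k / (1 + x ^ k) ^ 2 = g k - 4 * g (2 * k) := fun k hk => by
    obtain ⟨e1, e2⟩ := hne k hk
    have e : (1 : ℝ) - (x ^ k) ^ 2 = (1 - x ^ k) * (1 + x ^ k) := by ring
    simp only [hg]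
    rw [mul_comm 2 k, pow_mul, e]
    field_simp
    ring
  have hR := (FA.RamanujanPi.logDeriv_sq_theta ht).1
  have h3 := FA.GaussLegendre.three_thetaThree_pow ht
  rw [FA.RamanujanPi.axisR, show thetaThree t ^ 4 * (1 - 2 * FA.ThetaAGM.lambdaAxis t) =
      2 * thetaFour t ^ 4 - thetaThree t ^ 4 by
    have := (FA.ThetaAGM.thetaThree_pos ht).ne'
    rw [FA.ThetaAGM.lambdaAxis]
    field_simp
    linarith [FA.ThetaAGM.quartic ht]] at hR
  constructor
  · have h := h1.sub ((h2.sub hE4).mul_left 4)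
    rw [show (1 - axisE t) / 24 - 4 * ((1 - axisE (2 * t)) / 24 - (1 - axisE (4 * t)) / 24) =
      (1 + thetaThree t ^ 4 - 2 * thetaFour t ^ 4) / 24 by linarith] at h
    refine h.congr_fun fun n => ?_
    rcases Nat.even_or_odd (n + 1) with he | he
    · rw [hE, he.neg_one_pow]
      simp [he, hg]
    · rw [hE, he.neg_one_pow]
      simp [Nat.not_even_iff_odd.2 he, ← key (n + 1) n.succ_pos]
  · have h := h1.sub (hE4.mul_left 4)
    rw [show (1 - axisE t) / 24 - 4 * ((1 - axisE (4 * t)) / 24) = (thetaThree t ^ 4 - 1) / 8 by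
      linarith] at h
    refine h.congr_fun fun n => ?_
    rcases Nat.even_or_odd (n + 1) with he | he
    · rw [hE, he.neg_one_pow]
      simp [he, ← key (n + 1) n.succ_pos]
    · rw [hE, he.neg_one_pow]
      simp [Nat.not_even_iff_odd.2 he, hg, sub_eq_add_neg]

theorem fib_terms (n : ℕ) :
    (1 : ℝ) / (Nat.fib (n + 1) : ℝ) ^ 2 = 5 * (Real.exp (-π * goldenT) ^ (n + 1) /
      (1 - (-1) ^ (n + 1) * Real.exp (-π * goldenT) ^ (n + 1)) ^ 2) ∧
    (1 : ℝ) / ((Nat.fib n + Nat.fib (n + 2) : ℕ) : ℝ) ^ 2 = Real.exp (-π * goldenT) ^ (n + 1) /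
      (1 + (-1) ^ (n + 1) * Real.exp (-π * goldenT) ^ (n + 1)) ^ 2 := by
  have hφ := Real.goldenRatio_pos
  have hψ : ψ = -φ⁻¹ := by rw [Real.inv_goldenRatio, neg_neg]
  have h5 : (√5 : ℝ) ^ 2 = 5 := Real.sq_sqrt (by norm_num)
  have hs : (√5 : ℝ) ≠ 0 := by positivity
  rw [exp_goldenT, inv_pow, ← pow_mul, mul_comm 2, pow_mul]
  have hp : (0 : ℝ) < φ ^ (n + 1) := pow_pos hφ _
  constructor
  · rw [Real.coe_fib_eq, hψ, neg_pow φ⁻¹, inv_pow]
    field_simp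
    rw [h5]
  · have hL : ((Nat.fib n + Nat.fib (n + 2) : ℕ) : ℝ) = φ ^ (n + 1) + ψ ^ (n + 1) := by
      rw [Nat.cast_add, Real.coe_fib_eq, Real.coe_fib_eq, ← add_div, div_eq_iff hs,
        ← Real.goldenRatio_sub_goldenConj]
      linear_combination (φ ^ n - ψ ^ n) * Real.goldenRatio_mul_goldenConj
    rw [hL, hψ, neg_pow φ⁻¹, inv_pow]
    field_simp

/-- The three sums in the theta constants. -/
theorem fib_sums_eq :
    ∑' n : ℕ, (1 : ℝ) / (Nat.fib (n + 1) : ℝ) ^ 2 =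
        5 * ((1 + thetaThree goldenT ^ 4 - 2 * thetaFour goldenT ^ 4) / 24) ∧
      ∑' n : ℕ, (1 : ℝ) / ((Nat.fib n + Nat.fib (n + 2) : ℕ) : ℝ) ^ 2 =
        (thetaThree goldenT ^ 4 - 1) / 8 ∧
      ∑' n : ℕ, (1 : ℝ) / Nat.fib (2 * n + 1) = √5 * (thetaTwo goldenT ^ 2 / 4) := by
  obtain ⟨hF, hL⟩ := hasSum_alternating_squares goldenT_pos
  refine ⟨?_, ?_, ?_⟩
  · rw [← hF.tsum_eq, ← tsum_mul_left]
    exact tsum_congr fun n => (fib_terms n).1
  · rw [← hL.tsum_eq]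
    exact tsum_congr fun n => (fib_terms n).2
  · exact sum_inv_fib_odd_eq

/-- **`3 ∑ 1/F² + 5 ∑ 1/L² = 4 (∑ 1/F (2n+1))²`.** -/
theorem fib_sums_relation :
    3 * ∑' n : ℕ, (1 : ℝ) / (Nat.fib (n + 1) : ℝ) ^ 2 +
        5 * ∑' n : ℕ, (1 : ℝ) / ((Nat.fib n + Nat.fib (n + 2) : ℕ) : ℝ) ^ 2 =
      4 * (∑' n : ℕ, (1 : ℝ) / Nat.fib (2 * n + 1)) ^ 2 := by
  obtain ⟨e1, e2, e3⟩ := fib_sums_eq
  rw [e1, e2, e3, mul_pow, Real.sq_sqrt (by norm_num : (0 : ℝ) ≤ 5)]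
  linear_combination (-5 / 4 : ℝ) * FA.ThetaAGM.quartic goldenT_pos

/-- **Any two of the three sums** are algebraically independent. -/
theorem fib_sums_pairs :
    AlgebraicIndependent ℚ ![∑' n : ℕ, (1 : ℝ) / (Nat.fib (n + 1) : ℝ) ^ 2,
        ∑' n : ℕ, (1 : ℝ) / ((Nat.fib n + Nat.fib (n + 2) : ℕ) : ℝ) ^ 2] ∧
    AlgebraicIndependent ℚ ![∑' n : ℕ, (1 : ℝ) / (Nat.fib (n + 1) : ℝ) ^ 2,
        ∑' n : ℕ, (1 : ℝ) / Nat.fib (2 * n + 1)] ∧
    AlgebraicIndependent ℚ ![∑' n : ℕ, (1 : ℝ) / ((Nat.fib n + Nat.fib (n + 2) : ℕ) : ℝ) ^ 2,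
        ∑' n : ℕ, (1 : ℝ) / Nat.fib (2 * n + 1)] := by
  obtain ⟨e1, e2, e3⟩ := fib_sums_eq
  have hrel := fib_sums_relation
  set F := ∑' n : ℕ, (1 : ℝ) / (Nat.fib (n + 1) : ℝ) ^ 2
  set L := ∑' n : ℕ, (1 : ℝ) / ((Nat.fib n + Nat.fib (n + 2) : ℕ) : ℝ) ^ 2
  set S := ∑' n : ℕ, (1 : ℝ) / Nat.fib (2 * n + 1)
  have hq := FA.ThetaAGM.quartic goldenT_pos
  have hnome : IsAlgebraic ℚ ((Real.exp (-π * goldenT) : ℝ) : ℂ) := by
    rw [exp_goldenT]
    exact ((isAlgebraic_goldenRatio.pow 2).inv).algHom (Complex.ofRealAm.restrictScalars ℚ)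
  have hS2 : (thetaTwo goldenT : ℂ) ^ 4 = 16 * (S : ℂ) ^ 2 * (5 : ℂ)⁻¹ := by
    have : thetaTwo goldenT ^ 4 = 16 * S ^ 2 * 5⁻¹ := by
      rw [e3, mul_pow, Real.sq_sqrt (by norm_num : (0 : ℝ) ≤ 5)]
      ring
    simpa using congrArg (fun r : ℝ => (r : ℂ)) this
  have hL3 : (thetaThree goldenT : ℂ) ^ 4 = 8 * (L : ℂ) + 1 := by
    exact_mod_cast (show thetaThree goldenT ^ 4 = 8 * L + 1 by rw [e2]; ring)
  have hL4 : (thetaFour goldenT : ℂ) ^ 4 =
      (thetaThree goldenT : ℂ) ^ 4 - (thetaTwo goldenT : ℂ) ^ 4 := by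
    exact_mod_cast (show thetaFour goldenT ^ 4 = thetaThree goldenT ^ 4 - thetaTwo goldenT ^ 4 by
      linarith)
  have cast : (3 : ℂ) * F + 5 * L = 4 * (S : ℂ) ^ 2 := by exact_mod_cast hrel
  have main : ∀ {x y : ℂ}, (∀ K : IntermediateField ℚ ℂ, IsAlgebraic K x → IsAlgebraic K y →
      IsAlgebraic K (L : ℂ) ∧ IsAlgebraic K ((S : ℂ) ^ 2)) → AlgebraicIndependent ℚ ![x, y] := by
    intro x y h
    refine algebraicIndependent_theta goldenT_pos hnome fun K hx hy => ?_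
    obtain ⟨hl, hs⟩ := h K hx hy
    have hn : ∀ n : ℕ, IsAlgebraic K (n : ℂ) := fun n => isAlgebraic_natCast n
    have h3 : IsAlgebraic K ((thetaThree goldenT : ℂ) ^ 4) :=
      hL3 ▸ ((hn 8).mul hl).add isAlgebraic_one
    have h2 : IsAlgebraic K ((thetaTwo goldenT : ℂ) ^ 4) :=
      hS2 ▸ ((hn 16).mul hs).mul (hn 5).inv
    exact ⟨IsAlgebraic.of_pow four_pos h2, IsAlgebraic.of_pow four_pos h3,
      IsAlgebraic.of_pow four_pos (hL4 ▸ h3.sub h2)⟩
  have down : ∀ {a b : ℝ}, AlgebraicIndependent ℚ ![(a : ℂ), (b : ℂ)] →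
      AlgebraicIndependent ℚ ![a, b] := fun {a b} h => by
    refine AlgebraicIndependent.of_comp (Complex.ofRealAm.restrictScalars ℚ) ?_
    convert h using 1
    ext i
    fin_cases i <;> rfl
  refine ⟨down (main fun K hF hL => ⟨hL, ?_⟩), down (main fun K hF hS => ⟨?_, hS.pow 2⟩),
    down (main fun K hL hS => ⟨hL, hS.pow 2⟩)⟩
  · have hn : ∀ n : ℕ, IsAlgebraic K (n : ℂ) := fun n => isAlgebraic_natCast n
    rw [show (S : ℂ) ^ 2 = (3 * (F : ℂ) + 5 * L) * ((4 : ℕ) : ℂ)⁻¹ by rw [cast]; push_cast; ring]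
    exact (((hn 3).mul hF).add ((hn 5).mul hL)).mul (hn 4).inv
  · have hn : ∀ n : ℕ, IsAlgebraic K (n : ℂ) := fun n => isAlgebraic_natCast n
    rw [show (L : ℂ) = (4 * (S : ℂ) ^ 2 - 3 * F) * ((5 : ℕ) : ℂ)⁻¹ by rw [← cast]; push_cast; ring]
    exact (((hn 4).mul (hS.pow 2)).sub ((hn 3).mul hF)).mul (hn 5).inv

end FA.NesterenkoValues

end
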