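import Fermat.Agent.NesterenkoValues.AlgebraicNome
import Fermat.Agent.ModField.Elliptic
import Fermat.Agent.Viazovska.Forms

/-!
# Mahler's conjecture on `j`

With `D = (2 π i)⁻¹ d/dτ = q d/dq` the values of `P, Q, R` are rational in `j, D j, D² j` away
from the zeros of `E₄ E₆`: so three of `q, j, D j, D² j` are algebraically independent, and for
algebraic `q` the last three are.
-/

set_option autoImplicit false

noncomputable section

namespace FA.NesterenkoValues

open UpperHalfPlane hiding I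
open Derivative
open EisensteinSeries (E2)
open ModularForm (E₄ E₆)
open FA.ModField (jfun mdiff_jfun D_jfun jfun_sub_1728)
open scoped Manifold

local notation "ℚ⟪" s "⟫" => IntermediateField.adjoin ℚ (s : Set ℂ)

/-- `6 Δ D² j = 4 Q R² + 3 Q⁴ - P Q² R`. -/
theorem six_delta_D_D_jfun (z : ℍ) :
    6 * ModularForm.discriminant z * D (D jfun) z =
      4 * E₄ z * E₆ z ^ 2 + 3 * E₄ z ^ 4 - E2 z * E₄ z ^ 2 * E₆ z := by
  have h4 : MDiff (⇑E₄ : ℍ → ℂ) := (E₄).holo'
  have h6 : MDiff (⇑E₆ : ℍ → ℂ) := (E₆).holo'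
  have hΔ : MDiff ModularForm.discriminant := CuspForm.discriminant.holo'
  have hj : MDiff (D jfun) := normalizedDerivOfComplex_mdifferentiable mdiff_jfun
  have hprod : D jfun * ModularForm.discriminant = -((⇑E₄ : ℍ → ℂ) ^ 2 * ⇑E₆) := funext fun w => by
    simp only [Pi.mul_apply, Pi.neg_apply, Pi.pow_apply, D_jfun]
    rw [div_mul_cancel₀ _ (ModularForm.discriminant_ne_zero w)]
  have h := congrFun (congrArg normalizedDerivOfComplex hprod) z
  rw [normalizedDerivOfComplex_mul _ _ hj hΔ,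
    normalizedDerivOfComplex_neg _ ((h4.pow 2).mul h6),
    normalizedDerivOfComplex_mul _ _ (h4.pow 2) h6, normalizedDerivOfComplex_pow _ 2 h4] at h
  simp only [Pi.add_apply, Pi.mul_apply, Pi.neg_apply, Pi.pow_apply, Pi.natCast_apply,
    FA.Dim.D_discriminant] at h
  obtain ⟨e4, e6⟩ := FA.Viazovska.ramanujan_four_six z
  have hp := congrFun hprod z
  simp only [Pi.mul_apply, Pi.neg_apply, Pi.pow_apply] at hp
  rw [e4, e6] at h
  push_cast at h
  linear_combination 6 * h - 6 * E2 z * hp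

/-- `P, Q, R` in a field containing `j, D j, D² j`. -/
theorem values_mem_of_jfun {τ : ℍ} (h4 : E₄ τ ≠ 0) (h6 : E₆ τ ≠ 0) {K : IntermediateField ℚ ℂ}
    (hj : jfun τ ∈ K) (hd : D jfun τ ∈ K) (hdd : D (D jfun) τ ∈ K) :
    E₆ τ ∈ K ∧ E₄ τ ∈ K ∧ E2 τ ∈ K := by
  have hΔ := ModularForm.discriminant_ne_zero τ
  have eQ : E₄ τ = D jfun τ ^ 2 / (jfun τ * (jfun τ - 1728)) := by
    rw [D_jfun, jfun_sub_1728, jfun]
    field_simp
  have eR : E₆ τ = -D jfun τ ^ 3 / (jfun τ ^ 2 * (jfun τ - 1728)) := by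
    rw [D_jfun, jfun_sub_1728, jfun]
    field_simp
  have hQ : E₄ τ ∈ K := by
    rw [eQ]
    exact div_mem (pow_mem hd 2) (mul_mem hj (sub_mem hj (ofNat_mem K 1728)))
  have hR : E₆ τ ∈ K := by
    rw [eR]
    exact div_mem (neg_mem (pow_mem hd 3))
      (mul_mem (pow_mem hj 2) (sub_mem hj (ofNat_mem K 1728)))
  refine ⟨hR, hQ, ?_⟩
  have eD : ModularForm.discriminant τ = E₄ τ ^ 3 / jfun τ := by
    rw [jfun]
    field_simp
  have e : E2 τ = (4 * E₄ τ * E₆ τ ^ 2 + 3 * E₄ τ ^ 4 -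
      6 * ModularForm.discriminant τ * D (D jfun) τ) / (E₄ τ ^ 2 * E₆ τ) := by
    rw [six_delta_D_D_jfun]
    field_simp
    ring
  rw [e, eD]
  exact div_mem (sub_mem (add_mem (mul_mem (mul_mem (ofNat_mem K 4) hQ) (pow_mem hR 2))
    (mul_mem (ofNat_mem K 3) (pow_mem hQ 4)))
    (mul_mem (mul_mem (ofNat_mem K 6) (div_mem (pow_mem hQ 3) hj)) hdd))
    (mul_mem (pow_mem hQ 2) hR)

/-- `D² j, D j, j, q`. -/
def jVec (τ : ℍ) : Fin 4 → ℂ :=
  ![D (D jfun) τ, D jfun τ, jfun τ, Function.Periodic.qParam 1 (τ : ℂ)]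

/-- **Three of `q, j, D j, D² j`** are algebraically independent away from the zeros of
`E₄ E₆`. -/
theorem exists_three_jfun {τ : ℍ} (h4 : E₄ τ ≠ 0) (h6 : E₆ τ ≠ 0) :
    ∃ i j k, AlgebraicIndependent ℚ ![jVec τ i, jVec τ j, jVec τ k] := by
  refine FA.Nesterenko.exists_three_of_pairs fun {u v} huv => ?_
  obtain ⟨i, hi⟩ := FA.Nesterenko.exists_transcendental_over_pair
    (ω := fun i => FA.Nesterenko.fn i (Function.Periodic.qParam 1 τ))
    (fun ε hε hε1 => FA.Nesterenko.small_values_at τ hε hε1) huv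
  by_contra hc
  simp only [Transcendental, not_exists, not_not] at hc
  refine hi ?_
  set K := ℚ⟪{u, v}⟫
  have halg : ∀ x ∈ ℚ⟪Set.range (jVec τ)⟫, IsAlgebraic K x := fun x hx => by
    have hle : ℚ⟪Set.range (jVec τ)⟫ ≤ (algebraicClosure K ℂ).restrictScalars ℚ := by
      rw [IntermediateField.adjoin_le_iff]
      rintro _ ⟨m, rfl⟩
      exact mem_algebraicClosure_iff.2 (hc m)
    exact mem_algebraicClosure_iff.1 (hle hx)
  have mem : ∀ m, jVec τ m ∈ ℚ⟪Set.range (jVec τ)⟫ :=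
    fun m => IntermediateField.subset_adjoin ℚ _ ⟨m, rfl⟩
  obtain ⟨m6, m4, m2⟩ := values_mem_of_jfun h4 h6 (K := ℚ⟪Set.range (jVec τ)⟫)
    (by simpa [jVec] using mem 2) (by simpa [jVec] using mem 1) (by simpa [jVec] using mem 0)
  obtain ⟨e6, e4, e2⟩ := FA.Nesterenko.fn_qParam τ
  fin_cases i
  · simpa [e6] using halg _ m6
  · simpa [e4] using halg _ m4
  · simpa [e2] using halg _ m2
  · simpa [FA.Nesterenko.fn_three, jVec] using halg _ (mem 3)

/-- **Mahler's conjecture**: for algebraic `q` the values `j, D j, D² j` are algebraically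
independent. -/
theorem algebraicIndependent_jfun {τ : ℍ}
    (hq : IsAlgebraic ℚ (Function.Periodic.qParam 1 (τ : ℂ))) :
    AlgebraicIndependent ℚ ![jfun τ, D jfun τ, D (D jfun) τ] := by
  have h := algebraicIndependent_at_algebraic hq (by simp [Function.Periodic.qParam])
    (Function.Periodic.norm_qParam_lt_one one_pos τ.im_pos)
  obtain ⟨e6, e4, e2⟩ := FA.Nesterenko.fn_qParam τ
  rw [e2, e4, e6] at h
  have h4 : E₄ τ ≠ 0 := h.ne_zero 1
  have h6 : E₆ τ ≠ 0 := h.ne_zero 2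
  have h' := independent_of_algebraic_last (η := jVec τ) (exists_three_jfun h4 h6)
    (show IsAlgebraic ℚ (jVec τ 3) from hq)
  simpa only [jVec, Matrix.cons_val] using h'

end FA.NesterenkoValues

end
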