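import Fermat.Agent.NesterenkoValues.ComplexNome
import Fermat.Agent.NesterenkoValues.Triple
import Mathlib.Analysis.Complex.LocallyUniformLimit

/-!
# The derivatives of the theta series

With `θ₃⁴ = a + c` and Ramanujan's identities, `D θ₃ / θ₃` and `D² θ₃ / θ₃` give `E₂ + a - c` and
`a c`: so `∑ q ^ (n ²)`, `∑ n ² q ^ (n ²)`, `∑ n ⁴ q ^ (n ²)` are algebraically independent at an
algebraic `q`.
-/

set_option autoImplicit false

noncomputable section

namespace FA.NesterenkoValues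

open Complex (I)
open Filter Topology
open FA.Viazovska (thetaFourthTwo thetaFourthFour eisTwo quadPoly cubePoly)
open scoped Real

/-- `∑ n ^ k e ^ (π i n² τ)`. -/
def sqSeries (k : ℕ) (τ : ℂ) : ℂ :=
  ∑' n : ℕ, (n : ℂ) ^ k * Complex.exp (π * I * (n : ℂ) ^ 2 * τ)

theorem hasDerivAt_sqSeries (k : ℕ) {τ : ℂ} (hτ : 0 < τ.im) :
    HasDerivAt (sqSeries k) (π * I * sqSeries (k + 2) τ) τ := by
  set U : Set ℂ := {w | τ.im / 2 < w.im}
  have hU : IsOpen U := isOpen_lt continuous_const Complex.continuous_im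
  have hmem : τ ∈ U := show τ.im / 2 < τ.im by linarith
  set r := Real.exp (-π * (τ.im / 2)) with hr
  have hr0 : 0 < r := Real.exp_pos _
  have hr1 : r < 1 := Real.exp_lt_one_iff.2 (by nlinarith [Real.pi_pos])
  have hu : Summable fun n : ℕ => (n : ℝ) ^ k * r ^ n :=
    summable_pow_mul_geometric_of_norm_lt_one k (by rwa [Real.norm_of_nonneg hr0.le])
  have hle : ∀ (n : ℕ) (w : ℂ), w ∈ U →
      ‖(n : ℂ) ^ k * Complex.exp (π * I * (n : ℂ) ^ 2 * w)‖ ≤ (n : ℝ) ^ k * r ^ n := by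
    intro n w hw
    rw [norm_mul, norm_pow, Complex.norm_natCast]
    refine mul_le_mul_of_nonneg_left ?_ (by positivity)
    refine (norm_exp_mul_sq_le (lt_trans (half_pos hτ) hw) (n : ℤ)).trans ?_
    rw [Int.natAbs_natCast, hr]
    refine pow_le_pow_left₀ (Real.exp_pos _).le (Real.exp_le_exp.2 ?_) n
    exact mul_le_mul_of_nonpos_left hw.le (by linarith [Real.pi_pos])
  have hd : ∀ n : ℕ, Differentiable ℂ
      fun w : ℂ => (n : ℂ) ^ k * Complex.exp (π * I * (n : ℂ) ^ 2 * w) := fun n => by fun_prop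
  have hsum := Complex.hasSum_deriv_of_summable_norm hu (fun n => (hd n).differentiableOn) hU hle
    hmem
  have hdiff : DifferentiableAt ℂ (sqSeries k) τ :=
    (Complex.differentiableOn_tsum_of_summable_norm hu (fun n => (hd n).differentiableOn) hU
      hle).differentiableAt (hU.mem_nhds hmem)
  refine hdiff.hasDerivAt.congr_deriv ?_
  refine hsum.tsum_eq.symm.trans ?_
  rw [sqSeries, ← tsum_mul_left]
  refine tsum_congr fun n => ?_
  have h1 := (((hasDerivAt_id τ).const_mul (π * I * (n : ℂ) ^ 2)).cexp).const_mul ((n : ℂ) ^ k)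
  simp only [id_eq] at h1
  rw [h1.deriv]
  ring

theorem sqSeries_nome (k : ℕ) (τ : ℂ) {q : ℂ} (hq : Complex.exp (π * I * τ) = q) :
    sqSeries k τ = ∑' n : ℕ, (n : ℂ) ^ k * q ^ n ^ 2 := by
  refine tsum_congr fun n => ?_
  rw [← hq, ← Complex.exp_nat_mul]
  push_cast
  ring_nf

/-- **`D θ₃` and `D² θ₃`.** -/
theorem theta_derivatives {τ : ℂ} (hτ : 0 < τ.im) :
    24 * sqSeries 2 τ =
        jacobiTheta τ * (eisTwo τ + thetaFourthTwo τ - thetaFourthFour τ) ∧
      16 * sqSeries 4 τ = jacobiTheta τ *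
        ((eisTwo τ + thetaFourthTwo τ - thetaFourthFour τ) ^ 2 / 6 +
          thetaFourthTwo τ * thetaFourthFour τ) := by
  have hU : IsOpen {w : ℂ | 0 < w.im} := isOpen_lt continuous_const Complex.continuous_im
  have hne : ∀ w : ℂ, 0 < w.im → jacobiTheta w ≠ 0 := fun w hw h0 => by
    have h := (fourth_powers hw).2.2
    rw [h0, zero_pow (by norm_num)] at h
    exact (FA.Viazovska.thetaFourth_ne_zero hw).2.2 h.symm
  have hθ : ∀ w : ℂ, 0 < w.im →
      HasDerivAt jacobiTheta (2 * (π * I * sqSeries 2 w)) w := fun w hw => by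
    refine (((hasDerivAt_sqSeries 0 hw).const_mul 2).sub_const 1).congr_of_eventuallyEq ?_
    filter_upwards [hU.mem_nhds hw] with v hv
    rw [jacobiTheta_nome hv rfl, sqSeries_nome 0 v rfl]
    simp
  have first : ∀ w : ℂ, 0 < w.im → 24 * sqSeries 2 w =
      jacobiTheta w * (eisTwo w + thetaFourthTwo w - thetaFourthFour w) := fun w hw => by
    obtain ⟨ha, hc⟩ := FA.Viazovska.hasDerivAt_thetaFourth hw
    have h := ((hθ w hw).pow 4).unique ((ha.add hc).congr_of_eventuallyEq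
      (eventuallyEq_of_mem (hU.mem_nhds hw) fun v hv => (fourth_powers hv).2.2))
    have h4 := (fourth_powers hw).2.2
    refine mul_left_cancel₀ (mul_ne_zero (mul_ne_zero (Complex.ofReal_ne_zero.2 Real.pi_ne_zero)
      Complex.I_ne_zero) (pow_ne_zero 3 (hne w hw))) ?_
    push_cast at h
    linear_combination 3 * h -
      (π * I * (eisTwo w + thetaFourthTwo w - thetaFourthFour w)) * h4
  refine ⟨first τ hτ, ?_⟩
  obtain ⟨ha, hc⟩ := FA.Viazovska.hasDerivAt_thetaFourth hτ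
  have hE := FA.Viazovska.hasDerivAt_eisTwo hτ
  have h := ((hasDerivAt_sqSeries 2 hτ).const_mul 24).unique
    (((hθ τ hτ).mul ((hE.add ha).sub hc)).congr_of_eventuallyEq
      (eventuallyEq_of_mem (hU.mem_nhds hτ) first))
  refine mul_left_cancel₀ (mul_ne_zero (Complex.ofReal_ne_zero.2 Real.pi_ne_zero)
    Complex.I_ne_zero) ?_
  simp only [quadPoly, Pi.add_apply, Pi.sub_apply] at h
  linear_combination (2 / 3 : ℂ) * h +
    (π * I * (eisTwo τ + thetaFourthTwo τ - thetaFourthFour τ) / 18) * first τ hτ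

/-- **Bertrand's theorem.** -/
theorem algebraicIndependent_theta_derivatives {q : ℂ} (hq : IsAlgebraic ℚ q) (h0 : q ≠ 0)
    (h1 : ‖q‖ < 1) : AlgebraicIndependent ℚ ![∑' n : ℕ, q ^ n ^ 2,
      ∑' n : ℕ, (n : ℂ) ^ 2 * q ^ n ^ 2, ∑' n : ℕ, (n : ℂ) ^ 4 * q ^ n ^ 2] := by
  obtain ⟨τ, hqτ⟩ := exists_point two_pos h0 h1
  have hexp := exp_of_qParam_two hqτ
  have hq2 : Function.Periodic.qParam 1 (τ : ℂ) = q ^ 2 := by
    rw [← hexp, Function.Periodic.qParam, ← Complex.exp_nat_mul]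
    push_cast
    ring_nf
  refine algebraicIndependent_triple_values (τ := τ) fun K hx hy hz => ?_
  rw [← sqSeries_nome 2 _ hexp] at hy
  rw [← sqSeries_nome 4 _ hexp] at hz
  have hn : ∀ n : ℕ, IsAlgebraic K (n : ℂ) := fun n => isAlgebraic_natCast n
  set θ := jacobiTheta (τ : ℂ) with hθdef
  have hT : IsAlgebraic K θ := by
    rw [hθdef, jacobiTheta_nome τ.im_pos hexp]
    exact ((hn 2).mul hx).sub isAlgebraic_one
  have hne : θ ≠ 0 := fun h => by
    have h4 := (fourth_powers τ.im_pos).2.2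
    rw [← hθdef, h, zero_pow (by norm_num)] at h4
    exact (FA.Viazovska.thetaFourth_ne_zero τ.im_pos).2.2 h4.symm
  obtain ⟨d1, d2⟩ := theta_derivatives τ.im_pos
  rw [← hθdef] at d1 d2
  set a := thetaFourthTwo (τ : ℂ)
  set c := thetaFourthFour (τ : ℂ)
  set X := eisTwo (τ : ℂ) + a - c with hXdef
  have hX : IsAlgebraic K X := by
    rw [show X = ((24 : ℕ) : ℂ) * sqSeries 2 τ * θ⁻¹ by push_cast; rw [d1]; field_simp]
    exact ((hn 24).mul hy).mul hT.inv
  have hs : IsAlgebraic K (a + c) := (fourth_powers τ.im_pos).2.2 ▸ hT.pow 4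
  have hp : IsAlgebraic K (a * c) := by
    rw [show a * c = ((16 : ℕ) : ℂ) * sqSeries 4 τ * θ⁻¹ - X ^ 2 * ((6 : ℕ) : ℂ)⁻¹ by
      push_cast; rw [d2]; field_simp; ring]
    exact (((hn 16).mul hz).mul hT.inv).sub ((hX.pow 2).mul (hn 6).inv)
  have hd : IsAlgebraic K (a - c) := by
    refine IsAlgebraic.of_pow two_pos ?_
    rw [show (a - c) ^ 2 = (a + c) ^ 2 - ((4 : ℕ) : ℂ) * (a * c) by push_cast; ring]
    exact (hs.pow 2).sub ((hn 4).mul hp)
  have hA : IsAlgebraic K a := by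
    rw [show a = ((a + c) + (a - c)) * ((2 : ℕ) : ℂ)⁻¹ by push_cast; ring]
    exact (hs.add hd).mul (hn 2).inv
  have hC : IsAlgebraic K c := by
    rw [show c = (a + c) - a by ring]
    exact hs.sub hA
  refine ⟨?_, ?_, ?_, ?_⟩
  · rw [FA.Viazovska.eSix_eq, cubePoly, div_eq_mul_inv]
    exact (((hA.add ((hn 2).mul hC)).mul (((hn 2).mul hA).add hC)).mul (hC.sub hA)).mul (hn 2).inv
  · rw [FA.Viazovska.eFour_eq, quadPoly]
    exact ((hA.pow 2).add (hA.mul hC)).add (hC.pow 2)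
  · rw [show EisensteinSeries.E2 τ = X - a + c by
      rw [hXdef, FA.Viazovska.eisTwo, UpperHalfPlane.ofComplex_apply]; ring]
    exact (hX.sub hA).add hC
  · rw [hq2]
    exact IsAlgebraic.tower_top _ (hq.pow 2)

end FA.NesterenkoValues

end
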